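import Fermat.Agent.S16x.Conj.Defs
import Fermat.Agent.S16x.Asm.H6_Int

/-!
# S16, trace trick [TT] (hedge, helper23): the power series algebra

Pure algebra of power series (vocabulary of `Conj/Defs` and `Asm/H6_Int`):

* `coeff_conj_mul_push`, `coeff_push` : the `t^(p m)`-coefficients of the `t`-expansions of the
  conjugates `G ∣ S T^j * Δ(p ·) ∣ S T^j` resp. `Δ(p ·) ∣ S T^j` (no orthogonality of roots of
  unity is needed: `ζ^(j p m) = 1`);
* `tt_series` : the trace trick on the level of series: if `a ≡ 1 mod M'`, then the identity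
  `a * d(q^p) = p^(-12) U_p ((U_p a) * d)` and the Hecke relation `τ(p²) = τ(p)² - p^11`
  force `p + 1 ≡ 0 mod M'` (`ℓ`-integrally, `ℓ ≠ p`).
-/

set_option autoImplicit false

open PowerSeries

namespace Fermat.Agent.S16x.Tr.H23

open Fermat.Agent.S16x Fermat.Agent.S16x.Conj

theorem zeta_pow_self (p : ℕ) (hp : p ≠ 0) : zeta p ^ p = 1 := by
  have hp' : (p : ℂ) ≠ 0 := Nat.cast_ne_zero.mpr hp
  rw [zeta, ← Complex.exp_nat_mul]
  have : (p : ℂ) * (2 * Real.pi * Complex.I / p) = 2 * Real.pi * Complex.I := by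
    field_simp
  rw [this, Complex.exp_two_pi_mul_I]

theorem zeta_pow_mul (p : ℕ) (hp : p ≠ 0) (j u v m : ℕ) (h : u + v = p * m) :
    zeta p ^ (j * u) * zeta p ^ (j * v) = 1 := by
  rw [← pow_add, ← mul_add, h, ← mul_assoc, mul_comm j p, mul_assoc, pow_mul, zeta_pow_self p hp,
    one_pow]

/-- The `t^(p m)`-coefficient of `conjSeries * pushSeries`. -/
theorem coeff_conj_mul_push (p : ℕ) (hp : p ≠ 0) (k : ℤ) (a d : PowerSeries ℂ) (j m : ℕ) :
    coeff (p * m) (conjSeries p a j * pushSeries p k d j)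
      = -(1 / (p : ℂ)) * ((p : ℂ) ^ k)⁻¹ *
        ∑ uv ∈ Finset.HasAntidiagonal.antidiagonal (p * m), coeff (p * uv.1) a * coeff uv.2 d := by
  rw [coeff_mul, Finset.mul_sum]
  refine Finset.sum_congr rfl fun uv huv => ?_
  rw [Finset.HasAntidiagonal.mem_antidiagonal] at huv
  rw [conjSeries, pushSeries, coeff_mk, coeff_mk]
  have hz := zeta_pow_mul p hp j uv.1 uv.2 m huv
  linear_combination (-(1 / (p : ℂ)) * ((p : ℂ) ^ k)⁻¹ * coeff (p * uv.1) a * coeff uv.2 d) * hz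

/-- The `t^(p m)`-coefficient of `pushSeries`. -/
theorem coeff_push (p : ℕ) (hp : p ≠ 0) (k : ℤ) (d : PowerSeries ℂ) (j m : ℕ) :
    coeff (p * m) (pushSeries p k d j) = ((p : ℂ) ^ k)⁻¹ * coeff (p * m) d := by
  rw [pushSeries, coeff_mk]
  have hz : zeta p ^ (j * (p * m)) = 1 := by
    rw [← mul_assoc, mul_comm j p, mul_assoc, pow_mul, zeta_pow_self p hp, one_pow]
  rw [hz, mul_one]

/-- The operator `U_p` on power series. -/
noncomputable def upSeries (p : ℕ) (a : PowerSeries ℂ) : PowerSeries ℂ :=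
  PowerSeries.mk fun n => coeff (p * n) a

theorem coeff_upSeries_mul (p : ℕ) (a d : PowerSeries ℂ) (n : ℕ) :
    coeff n (upSeries p a * d) = ∑ uv ∈ Finset.HasAntidiagonal.antidiagonal n, coeff (p * uv.1) a * coeff uv.2 d := by
  rw [coeff_mul]
  refine Finset.sum_congr rfl fun uv _ => ?_
  rw [upSeries, coeff_mk]

/-- `a ≡ 1 mod M'`: constant term `1`, higher coefficients in `M' * intL ℓ`. -/
def OneMod (ℓ : ℕ) (M' : ℂ) (a : PowerSeries ℂ) : Prop :=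
  coeff 0 a = 1 ∧ ∀ i : ℕ, 1 ≤ i → ∃ r ∈ intL ℓ, coeff i a = M' * r

theorem OneMod.sub_one_mem {ℓ : ℕ} {M' : ℂ} {a : PowerSeries ℂ} (h : OneMod ℓ M' a) :
    a - 1 ∈ psMul ℓ M' := by
  intro n
  rcases Nat.eq_zero_or_pos n with rfl | hn
  · refine ⟨0, Subring.zero_mem _, ?_⟩
    rw [map_sub, h.1, coeff_zero_one, sub_self, mul_zero]
  · obtain ⟨r, hr, e⟩ := h.2 n hn
    refine ⟨r, hr, ?_⟩
    rw [map_sub, e, coeff_one, if_neg hn.ne', sub_zero]

theorem OneMod.upSeries {ℓ : ℕ} {M' : ℂ} {a : PowerSeries ℂ} (h : OneMod ℓ M' a) (p : ℕ)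
    (hp : 0 < p) : OneMod ℓ M' (upSeries p a) := by
  refine ⟨?_, fun i hi => ?_⟩
  · rw [Fermat.Agent.S16x.Tr.H23.upSeries, coeff_mk, mul_zero, h.1]
  · rw [Fermat.Agent.S16x.Tr.H23.upSeries, coeff_mk]
    exact h.2 (p * i) (Nat.mul_pos hp hi)

/-- If `a ≡ 1 mod M'` and `E` is `ℓ`-integral then `a * E ≡ E mod M'`. -/
theorem OneMod.coeff_mul {ℓ : ℕ} {M' : ℂ} {a : PowerSeries ℂ} (h : OneMod ℓ M' a)
    {E : PowerSeries ℂ} (hE : E ∈ psInt ℓ) (n : ℕ) :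
    ∃ r ∈ intL ℓ, coeff n (a * E) = coeff n E + M' * r := by
  have h1 : (a - 1) * E ∈ psMul ℓ M' := mul_mem_psMul' h.sub_one_mem hE
  obtain ⟨r, hr, e⟩ := h1 n
  refine ⟨r, hr, ?_⟩
  have h2 : a * E = E + (a - 1) * E := by ring
  rw [h2, map_add, e]

theorem expand_mem_psInt {ℓ : ℕ} (p : ℕ) (hp : p ≠ 0) {d : PowerSeries ℂ} (hd : d ∈ psInt ℓ) :
    PowerSeries.expand p hp d ∈ psInt ℓ := by
  intro n
  rw [coeff_expand]
  split_ifs
  · exact hd _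
  · exact Subring.zero_mem _

/-- **The trace trick on the level of series.** -/
theorem tt_series (p ℓ : ℕ) (hp : p.Prime) (hℓp : p.Coprime ℓ) (M' : ℂ)
    (a d : PowerSeries ℂ) (ha : OneMod ℓ M' a) (hd : d ∈ psInt ℓ) (hd1 : coeff 1 d = 1)
    (h14 : ∀ m : ℕ, coeff m (a * PowerSeries.expand p hp.ne_zero d)
      = ((p : ℂ) ^ (12 : ℤ))⁻¹ *
        ∑ uv ∈ Finset.HasAntidiagonal.antidiagonal (p * m), coeff (p * uv.1) a * coeff uv.2 d)
    (htau : coeff (p ^ 2) d = (coeff p d) ^ 2 - (p : ℂ) ^ 11) :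
    ∃ r ∈ intL ℓ, (p : ℂ) + 1 = M' * r := by
  have hp0 : (p : ℂ) ≠ 0 := Nat.cast_ne_zero.mpr hp.ne_zero
  have hpint : (p : ℂ) ∈ intL ℓ := natCast_mem_intL ℓ p
  have hE : PowerSeries.expand p hp.ne_zero d ∈ psInt ℓ := expand_mem_psInt p hp.ne_zero hd
  -- the congruence `d_(p m) ≡ p^12 [p ∣ m] d_(m / p)`
  have key : ∀ m : ℕ, ∃ r ∈ intL ℓ,
      coeff (p * m) d = (p : ℂ) ^ 12 * coeff m (PowerSeries.expand p hp.ne_zero d) + M' * r := by
    intro m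
    obtain ⟨r₁, hr₁, e₁⟩ := ha.coeff_mul hE m
    obtain ⟨r₂, hr₂, e₂⟩ := (ha.upSeries p hp.pos).coeff_mul hd (p * m)
    rw [coeff_upSeries_mul] at e₂
    have h := h14 m
    rw [e₁, e₂] at h
    refine ⟨(p : ℂ) ^ 12 * r₁ - r₂, Subring.sub_mem _ (Subring.mul_mem _
      (Subring.pow_mem _ hpint 12) hr₁) hr₂, ?_⟩
    have hp12 : ((p : ℂ) ^ (12 : ℤ)) = (p : ℂ) ^ 12 := by norm_cast
    rw [hp12] at h
    have hp12' : (p : ℂ) ^ 12 ≠ 0 := pow_ne_zero _ hp0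
    field_simp at h
    linear_combination -h
  -- `m = 1`
  obtain ⟨s₁, hs₁, e₁⟩ := key 1
  rw [mul_one, coeff_expand_of_not_dvd p hp.ne_zero d (Nat.Prime.not_dvd_one hp), mul_zero,
    zero_add] at e₁
  -- `m = p`
  obtain ⟨s₂, hs₂, e₂⟩ := key p
  have hpp : p * p = p ^ 2 := by ring
  have hcoe : coeff p (PowerSeries.expand p hp.ne_zero d) = 1 := by
    have := coeff_expand_mul p hp.ne_zero d 1
    rwa [mul_one, hd1] at this
  rw [hpp, hcoe, mul_one, htau, e₁] at e₂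
  -- `p^11 (p + 1) = M' * (M' s₁² - s₂)`
  have h3 : (p : ℂ) ^ 11 * ((p : ℂ) + 1) = M' * (s₁ * (M' * s₁) - s₂) := by
    linear_combination -e₂
  have hM's₁ : M' * s₁ ∈ intL ℓ := by
    rw [← e₁]; exact hd p
  have hinv : ((p : ℂ) ^ 11)⁻¹ ∈ intL ℓ := by
    have h := div_mem_intL ℓ 1 (b := p ^ 11) (Nat.Coprime.pow_left 11 hℓp)
      (pow_ne_zero _ hp.ne_zero)
    simpa using h
  refine ⟨((p : ℂ) ^ 11)⁻¹ * (s₁ * (M' * s₁) - s₂), Subring.mul_mem _ hinv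
    (Subring.sub_mem _ (Subring.mul_mem _ hs₁ hM's₁) hs₂), ?_⟩
  have hp11 : (p : ℂ) ^ 11 ≠ 0 := pow_ne_zero _ hp0
  field_simp
  linear_combination h3

end Fermat.Agent.S16x.Tr.H23
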