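import Fermat.Agent.S16x.Tr.H23_L1
import Fermat.Agent.S16x.Tr.H23_Series
import Fermat.Agent.S16x.Asm.Defs

/-!
# S16, trace trick [TT] (hedge, helper23): `StUP2a` and `StUP3a` from the [CONJ] interface

For `G ∈ M_2(Γ₀(p))` and `Δ_p(z) = Δ(p z)` (the `StPush` form of `Δ`), the trace to level one of
the weight-14 cusp form `G Δ_p` vanishes, and the trace of `Δ_p` is a multiple of `Δ`.  In terms
of `q`-expansions (`a = q`-expansion of `G`, `d = q`-expansion of `Δ`):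

* `a * d(q^p) = p^(-12) U_p ((U_p a) * d)`   (`h23_h14`),
* `τ(p²) = τ(p)² - p^11`                      (`h23_tau`).

If `a ≡ 1 mod M'` (`ℓ`-integrally, `ℓ ≠ p`) this gives `p + 1 ≡ 0 mod M'` (`h23_trace_trick`),
which is impossible for `M' = 4`, `p ≡ 1 mod 4` and for `M' = 3`, `p ≡ 1 mod 3`.
-/

set_option autoImplicit false

open ModularForm UpperHalfPlane PowerSeries CongruenceSubgroup
open scoped MatrixGroups

namespace Fermat.Agent.S16x.Tr.H23

open Fermat.Agent.S16x Fermat.Agent.S16x.Conj Fermat.Agent.S16x.L1 Fermat.Agent.S16x.L1.H15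

variable (p : ℕ) [Fact p.Prime]

/-- The `q`-coefficients of the trace `e_1(f)` of a form on `Γ₀(p)`. -/
theorem coeff_trace (hMain : StMainCoeff p) (k : ℤ) (f : ModularForm (Gamma0 p) k) (n : ℕ) :
    (qExpansion 1 (Fermat.Agent.S23.esymmMF f 1)).coeff n =
      coeff (p * n) (tExp p (cj p k f OnePoint.infty)) +
        ∑ j : ZMod p, coeff (p * n) (tExp p (cj p k f (OnePoint.some j))) := by
  rw [hMain k f 1 n]
  have h1 : ((Finset.univ : Finset (OnePoint (ZMod p))).val.map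
      (fun x => tExp p (cj p k f x))).esymm 1
      = ∑ x : OnePoint (ZMod p), tExp p (cj p k f x) := by
    rw [Multiset.esymm, Multiset.powersetCard_one, Multiset.map_map]
    have : (Multiset.prod ∘ fun x : PowerSeries ℂ => ({x} : Multiset (PowerSeries ℂ)))
        = id := by
      funext x
      simp
    rw [this, Multiset.map_id, Finset.sum_map_val]
  rw [h1]
  have h2 : ∑ x : OnePoint (ZMod p), tExp p (cj p k f x)
      = tExp p (cj p k f OnePoint.infty) + ∑ j : ZMod p, tExp p (cj p k f (OnePoint.some j)) :=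
    Fintype.sum_option (fun x : Option (ZMod p) => tExp p (cj p k f x))
  rw [h2, map_add, map_sum]

section Main

variable (hMain : StMainCoeff p) (hInfty : StInfty p) (hTwo : StTwo p) (hAlg : StAlg p)
  (hRing : StRing p) (hNice : StNice p)

include hMain hInfty in
/-- The trace of `Δ_p`: coefficients. -/
theorem coeff_trace_push (Dp : ModularForm (Gamma0 p) 12) (d : PowerSeries ℂ)
    (hq : qExpansion 1 Dp = PowerSeries.expand p (Fact.out : p.Prime).ne_zero d)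
    (hj : ∀ j : ZMod p, tExp p (cj p 12 Dp (OnePoint.some j)) = pushSeries p 12 d j.val)
    (n : ℕ) :
    (qExpansion 1 (Fermat.Agent.S23.esymmMF Dp 1)).coeff n =
      coeff n (PowerSeries.expand p (Fact.out : p.Prime).ne_zero d)
        + (p : ℂ) * (((p : ℂ) ^ (12 : ℤ))⁻¹ * coeff (p * n) d) := by
  have hp : p ≠ 0 := (Fact.out : p.Prime).ne_zero
  rw [coeff_trace p hMain, hInfty 12 Dp, hq, coeff_expand_mul]
  congr 1
  have h : ∀ j : ZMod p, coeff (p * n) (tExp p (cj p 12 Dp (OnePoint.some j)))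
      = ((p : ℂ) ^ (12 : ℤ))⁻¹ * coeff (p * n) d := by
    intro j
    rw [hj j, coeff_push p hp]
  rw [Finset.sum_congr rfl (fun j _ => h j), Finset.sum_const, Finset.card_univ, ZMod.card,
    nsmul_eq_mul]

include hMain hInfty hTwo hAlg hRing hNice in
/-- The trace of `G Δ_p`: coefficients. -/
theorem coeff_trace_mul (G : ModularForm (Gamma0 p) 2) (Dp : ModularForm (Gamma0 p) 12)
    (d : PowerSeries ℂ)
    (hq : qExpansion 1 Dp = PowerSeries.expand p (Fact.out : p.Prime).ne_zero d)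
    (hj : ∀ j : ZMod p, tExp p (cj p 12 Dp (OnePoint.some j)) = pushSeries p 12 d j.val)
    (n : ℕ) :
    (qExpansion 1 (Fermat.Agent.S23.esymmMF (G.mul Dp) 1)).coeff n =
      coeff n (qExpansion 1 G * PowerSeries.expand p (Fact.out : p.Prime).ne_zero d)
        - ((p : ℂ) ^ (12 : ℤ))⁻¹ *
          ∑ uv ∈ Finset.HasAntidiagonal.antidiagonal (p * n),
            coeff (p * uv.1) (qExpansion 1 G) * coeff uv.2 d := by
  have hp : p ≠ 0 := (Fact.out : p.Prime).ne_zero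
  have hp' : (p : ℂ) ≠ 0 := Nat.cast_ne_zero.mpr hp
  have hcj : ∀ x : OnePoint (ZMod p), tExp p (cj p (2 + 12) (G.mul Dp) x)
      = tExp p (cj p 2 G x) * tExp p (cj p 12 Dp x) := by
    intro x
    rw [ModularForm.coe_mul, hAlg.1 2 12 G Dp x]
    exact ((hRing.2.1 _ _ (hNice 2 G x) (hNice 12 Dp x)).2)
  rw [coeff_trace p hMain, hcj, hInfty 2 G, hInfty 12 Dp, hq, ← map_mul, coeff_expand_mul]
  rw [sub_eq_add_neg]
  congr 1
  have h : ∀ j : ZMod p, coeff (p * n) (tExp p (cj p (2 + 12) (G.mul Dp) (OnePoint.some j)))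
      = -(1 / (p : ℂ)) * ((p : ℂ) ^ (12 : ℤ))⁻¹ *
        ∑ uv ∈ Finset.HasAntidiagonal.antidiagonal (p * n),
          coeff (p * uv.1) (qExpansion 1 G) * coeff uv.2 d := by
    intro j
    rw [hcj, hTwo G j, hj j, coeff_conj_mul_push p hp]
  rw [Finset.sum_congr rfl (fun j _ => h j), Finset.sum_const, Finset.card_univ, ZMod.card,
    nsmul_eq_mul]
  field_simp

/-- `Δ` as a modular form of level one. -/
noncomputable def discMF : ModularForm 𝒮ℒ 12 := CuspForm.toModularFormₗ CuspForm.discriminant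

theorem qExpansion_discMF : qExpansion 1 discMF = qD := rfl

variable (hPush : StPush p)

include hMain hInfty hTwo hAlg hRing hNice hPush in
/-- `a * d(q^p) = p^(-12) U_p ((U_p a) * d)`: the trace of the weight-14 cusp form `G Δ_p`
vanishes. -/
theorem h23_h14 (G : ModularForm (Gamma0 p) 2) (m : ℕ) :
    coeff m (qExpansion 1 G * PowerSeries.expand p (Fact.out : p.Prime).ne_zero qD)
      = ((p : ℂ) ^ (12 : ℤ))⁻¹ *
        ∑ uv ∈ Finset.HasAntidiagonal.antidiagonal (p * m),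
          coeff (p * uv.1) (qExpansion 1 G) * coeff uv.2 qD := by
  obtain ⟨Dp, -, hq, hj⟩ := hPush 12 discMF
  rw [qExpansion_discMF] at hq hj
  have hc := coeff_trace_mul p hMain hInfty hTwo hAlg hRing hNice G Dp qD hq hj
  have hd0 : constantCoeff qD = 0 := by
    rw [← coeff_zero_eq_constantCoeff_apply]; exact h15_coeff_zero_qD
  have h0 : coeff 0 (qExpansion 1 (Fermat.Agent.S23.esymmMF (G.mul Dp) 1)) = 0 := by
    rw [hc 0, mul_zero]
    simp [hd0]
  have hz := h23_wt14 ((2 + 12) * (1 : ℕ)) (by norm_num) (Fermat.Agent.S23.esymmMF (G.mul Dp) 1) h0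
  have h1 := hc m
  rw [hz, map_zero] at h1
  exact (sub_eq_zero.mp h1.symm)

include hMain hInfty hPush in
/-- The Hecke relation `τ(p²) = τ(p)² - p^11`, from the trace of `Δ_p`. -/
theorem h23_tau : coeff (p ^ 2) qD = (coeff p qD) ^ 2 - (p : ℂ) ^ 11 := by
  have hp : p.Prime := Fact.out
  have hp0 : (p : ℂ) ≠ 0 := Nat.cast_ne_zero.mpr hp.ne_zero
  obtain ⟨Dp, -, hq, hj⟩ := hPush 12 discMF
  rw [qExpansion_discMF] at hq hj
  have hc := coeff_trace_push p hMain hInfty Dp qD hq hj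
  have hd0 : constantCoeff qD = 0 := by
    rw [← coeff_zero_eq_constantCoeff_apply]; exact h15_coeff_zero_qD
  have h0 : coeff 0 (qExpansion 1 (Fermat.Agent.S23.esymmMF Dp 1)) = 0 := by
    rw [hc 0, mul_zero]
    simp [hd0]
  obtain ⟨c, hcq⟩ := h23_wt12 (12 * (1 : ℕ)) (by norm_num) (Fermat.Agent.S23.esymmMF Dp 1) h0
  have h1 := hc 1
  rw [hcq, coeff_C_mul, h15_coeff_one_qD, mul_one, mul_one,
    coeff_expand_of_not_dvd p hp.ne_zero qD (Nat.Prime.not_dvd_one hp), zero_add] at h1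
  have h2 := hc p
  have hcoe : coeff p (PowerSeries.expand p hp.ne_zero qD) = 1 := by
    have := coeff_expand_mul p hp.ne_zero qD 1
    rwa [mul_one, h15_coeff_one_qD] at this
  have hpp : p * p = p ^ 2 := by ring
  rw [hcq, coeff_C_mul, hcoe, hpp, h1] at h2
  have hp12 : ((p : ℂ) ^ (12 : ℤ)) = (p : ℂ) ^ 12 := by norm_cast
  rw [hp12] at h2
  have hp12' : (p : ℂ) ^ 12 ≠ 0 := pow_ne_zero _ hp0
  field_simp at h2
  linear_combination -h2

theorem qD_mem_psInt (ℓ : ℕ) : qD ∈ psInt ℓ :=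
  mem_psInt_of_int h15_stINT.2.2.1

omit [Fact p.Prime] in
/-- From `Asm.IsOneMod` to `OneMod`. -/
theorem oneMod_of_isOneMod {ℓ : ℕ} (hℓ : ℓ.Prime) {M' : ℕ}
    {G : ModularForm (Gamma0 p) 2} (hG : Asm.IsOneMod p ℓ M' G) :
    OneMod ℓ (M' : ℂ) (qExpansion 1 G) := by
  obtain ⟨h0, b, hb, hk⟩ := hG
  refine ⟨h0, fun i hi => ?_⟩
  obtain ⟨c, hc⟩ := hk i hi
  have hb0 : b ≠ 0 := by
    rintro rfl
    exact hb (dvd_zero ℓ)
  have hcop : b.Coprime ℓ := ((Nat.Prime.coprime_iff_not_dvd hℓ).mpr hb).symm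
  refine ⟨(c : ℂ) / (b : ℂ), div_mem_intL ℓ c hcop hb0, ?_⟩
  have hb' : (b : ℂ) ≠ 0 := Nat.cast_ne_zero.mpr hb0
  have hc' : (b : ℂ) * coeff i (qExpansion 1 G) = (M' : ℂ) * (c : ℂ) := hc
  field_simp
  linear_combination hc'

include hMain hInfty hTwo hAlg hRing hNice hPush in
/-- **The trace trick**: if `G ∈ M_2(Γ₀(p))` is `≡ 1 mod M'` (`ℓ`-integrally, `ℓ ≠ p`), then
`p + 1 ≡ 0 mod M'`. -/
theorem h23_trace_trick (ℓ : ℕ) (hℓ : ℓ.Prime) (hℓp : ℓ ≠ p) (M' : ℕ)
    (G : ModularForm (Gamma0 p) 2) (hG : Asm.IsOneMod p ℓ M' G) :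
    ∃ r ∈ intL ℓ, (p : ℂ) + 1 = (M' : ℂ) * r := by
  have hp : p.Prime := Fact.out
  have hcop : p.Coprime ℓ := (Nat.coprime_primes hp hℓ).mpr (Ne.symm hℓp)
  exact tt_series p ℓ hp hcop (M' : ℂ) (qExpansion 1 G) qD (oneMod_of_isOneMod p hℓ hG)
    (qD_mem_psInt ℓ) h15_coeff_one_qD
    (h23_h14 p hMain hInfty hTwo hAlg hRing hNice hPush G)
    (h23_tau p hMain hInfty hPush)

include hMain hInfty hTwo hAlg hRing hNice hPush in
/-- **[UP2a]**, verbatim. -/
theorem h23_stUP2a : Asm.StUP2a p := by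
  intro hp5 hp4 G hG
  obtain ⟨r, hr, e⟩ := h23_trace_trick p hMain hInfty hTwo hAlg hRing hNice hPush 2
    Nat.prime_two (by omega) 4 G hG
  -- `p + 1 = 4 q + 2`
  obtain ⟨q, hq⟩ : ∃ q : ℕ, p + 1 = 4 * q + 2 := ⟨p / 4, by omega⟩
  have hq' : (p : ℂ) + 1 = 4 * (q : ℂ) + 2 := by exact_mod_cast hq
  have hhalf : r - (q : ℂ) ∈ intL 2 := Subring.sub_mem _ hr (natCast_mem_intL 2 q)
  refine not_mem_intL_of_mul_eq_one Nat.prime_two (r := r - (q : ℂ)) ?_ hhalf
  push_cast at e ⊢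
  linear_combination (-1 / 2 : ℂ) * e + (1 / 2 : ℂ) * hq'

include hMain hInfty hTwo hAlg hRing hNice hPush in
/-- **[UP3a]**, verbatim. -/
theorem h23_stUP3a : Asm.StUP3a p := by
  intro hp5 hp3 G hG
  obtain ⟨r, hr, e⟩ := h23_trace_trick p hMain hInfty hTwo hAlg hRing hNice hPush 3
    Nat.prime_three (by omega) 3 G hG
  -- `p + 1 = 3 q + 2`
  obtain ⟨q, hq⟩ : ∃ q : ℕ, p + 1 = 3 * q + 2 := ⟨p / 3, by omega⟩
  have hq' : (p : ℂ) + 1 = 3 * (q : ℂ) + 2 := by exact_mod_cast hq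
  -- `1/3 = 2 (r - q) - 1`
  have hthird : 2 * (r - (q : ℂ)) - 1 ∈ intL 3 :=
    Subring.sub_mem _ (Subring.mul_mem _ (natCast_mem_intL 3 2) (Subring.sub_mem _ hr
      (natCast_mem_intL 3 q))) (Subring.one_mem _)
  refine not_mem_intL_of_mul_eq_one Nat.prime_three (r := 2 * (r - (q : ℂ)) - 1) ?_ hthird
  push_cast at e ⊢
  linear_combination (-2 : ℂ) * e + (2 : ℂ) * hq'

end Main

end Fermat.Agent.S16x.Tr.H23
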