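import Fermat.Agent.S16x.Tr.H13_Trace
import Fermat.Agent.S16x.Conj.H3_Final
import Fermat.Agent.S16x.Conj.H2_Push

/-!
# S16, leaves `[UP2a]` + `[UP3a]`: the only remaining input is `Conj.StTwo p` (helper13)

All the other leaves of `[CONJ]` used by `Tr/H13_Trace.lean` are on main (`Conj.H3.stMainCoeff`,
`Conj.H3.stInfty`, `Conj.H3.stAlg`, `Conj.H3.stRing`, `Conj.H3.stNice`, `Conj.H2.stPush`), so

* `tt_of_two p : Conj.StTwo p → Asm.StUP2a p ∧ Asm.StUP3a p`;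
* `stTAU : L1.StTAU` (hypothesis-free): `τ(p²) = τ(p)² - p¹¹`.
-/

set_option autoImplicit false

open UpperHalfPlane ModularForm CongruenceSubgroup

open scoped MatrixGroups ModularForm

noncomputable section

namespace Fermat.Agent.S16x.Tr.H13

open Fermat.Agent.S16x

/-- The trace trick with `Conj.StTwo p` as its only hypothesis. -/
theorem trace_trick_of_two (p : ℕ) [Fact p.Prime] (hTwo : Conj.StTwo p)
    (l e : ℕ) (hl : l.Prime) (hlp : l ≠ p) (G : ModularForm (Gamma0 p) 2)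
    (hG : Asm.IsOneMod p l (l ^ e) G) : l ^ e ∣ p + 1 :=
  trace_trick p (Conj.H3.stMainCoeff p) (Conj.H3.stInfty p) hTwo (Conj.H2.stPush p)
    (Conj.H3.stAlg p) (Conj.H3.stRing p) (Conj.H3.stNice p) l e hl hlp G hG

/-- `[UP2a]` and `[UP3a]` with `Conj.StTwo p` as their only hypothesis. -/
theorem tt_of_two (p : ℕ) [Fact p.Prime] (hTwo : Conj.StTwo p) :
    Asm.StUP2a p ∧ Asm.StUP3a p :=
  tt_of p (Conj.H3.stMainCoeff p) (Conj.H3.stInfty p) hTwo (Conj.H2.stPush p)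
    (Conj.H3.stAlg p) (Conj.H3.stRing p) (Conj.H3.stNice p)

/-- `[UP2a]` from `Conj.StTwo p`. -/
theorem stUP2a_of_two (p : ℕ) [Fact p.Prime] (hTwo : Conj.StTwo p) : Asm.StUP2a p :=
  (tt_of_two p hTwo).1

/-- `[UP3a]` from `Conj.StTwo p`. -/
theorem stUP3a_of_two (p : ℕ) [Fact p.Prime] (hTwo : Conj.StTwo p) : Asm.StUP3a p :=
  (tt_of_two p hTwo).2

/-- **[TAU]** (hypothesis-free): `τ(p²) = τ(p)² - p¹¹` for every prime `p`. -/
theorem stTAU : L1.StTAU := by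
  intro p hp
  have : Fact p.Prime := ⟨hp⟩
  have h : p ^ 2 = p * p := sq p
  rw [h]
  exact tau_sq p (Conj.H3.stMainCoeff p) (Conj.H3.stInfty p) (Conj.H2.stPush p)

end Fermat.Agent.S16x.Tr.H13
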