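import Mathlib
import Fermat.Agent.S16x.Conj.Defs
import Fermat.Agent.S16x.Asm.Defs
import Fermat.Agent.S16x.L1.H15_Poly

/-!
# S16, leaves `[UP2a]` + `[UP3a]` (the trace trick), on top of the `[CONJ]` interface (helper13)

For `G ∈ M_2(Γ₀(p))` with constant term `1` and `G ≡ 1` modulo `l ^ e` (`l`-integrally, `l ≠ p`)
we show `l ^ e ∣ p + 1`:

* `H := G * Δ_p` (`Δ_p(z) = Δ(p z)`, from `Conj.StPush`) has weight `14`; its trace
  `S23.esymmMF H 1` to level one has zero constant term, hence zero `q`-expansion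
  (`qExp_eq_zero_of_weight_14`, from helper15's triangular basis);
* by `Conj.StMainCoeff`, `Conj.StInfty`, `Conj.StTwo`, `Conj.StPush`, `Conj.StAlg`, `Conj.StRing`,
  `Conj.StNice` the `n`-th coefficient of this trace is
  `coeff n (A * expand p Δ) - p⁻¹² ∑_{u ≤ p n} a_{p u} τ_{p n - u}` (`coeff_trace_mul`);
* `n = 1` gives `∑_{u ≤ p} a_{p u} τ_{p - u} = 0`, `n = p` gives
  `∑_{u ≤ p²} a_{p u} τ_{p² - u} = p¹²`;
* the same computation for `Δ_p` alone gives `τ(p²) = τ(p)² - p¹¹` (`tau_sq`);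
* arithmetic (`arith_core`, `dvd_succ_of`): `l ^ e ∣ b² p¹¹ (p + 1)`, so `l ^ e ∣ p + 1`.

Main results: `trace_trick`, `tt_of : … → Asm.StUP2a p ∧ Asm.StUP3a p`, `tau_sq`.
-/

set_option autoImplicit false

open UpperHalfPlane ModularForm CongruenceSubgroup
open scoped MatrixGroups ModularForm

noncomputable section

namespace Fermat.Agent.S16x.Tr.H13

open Fermat.Agent.S16x

theorem esymm_one_eq {R : Type*} [CommSemiring R] (s : Multiset R) : s.esymm 1 = s.sum := by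
  simp [Multiset.esymm, Multiset.powersetCard_one, Multiset.map_map]

theorem sum_onePoint (p : ℕ) [NeZero p] {β : Type*} [AddCommMonoid β]
    (F : OnePoint (ZMod p) → β) :
    ∑ x : OnePoint (ZMod p), F x = F OnePoint.infty + ∑ j : ZMod p, F (OnePoint.some j) :=
  Fintype.sum_option F

/-- trace: q-coefficients of e_1 -/
theorem coeff_trace (p : ℕ) [Fact p.Prime] (hMC : Conj.StMainCoeff p) (k : ℤ)
    (f : ModularForm (Gamma0 p) k) (n : ℕ) :
    (qExpansion 1 (Fermat.Agent.S23.esymmMF f 1)).coeff n =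
      PowerSeries.coeff (p * n) (Conj.tExp p (Conj.cj p k f OnePoint.infty)) +
        ∑ j : ZMod p, PowerSeries.coeff (p * n)
          (Conj.tExp p (Conj.cj p k f (OnePoint.some j))) := by
  have : NeZero p := ⟨(Fact.out : p.Prime).ne_zero⟩
  rw [hMC k f 1 n, esymm_one_eq]
  change PowerSeries.coeff (p * n) (∑ x : OnePoint (ZMod p), Conj.tExp p (Conj.cj p k f x)) = _
  rw [sum_onePoint, map_add, map_sum]

theorem zeta_pow_p (p : ℕ) (hp : p ≠ 0) : Conj.zeta p ^ p = 1 := by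
  unfold Conj.zeta
  rw [← Complex.exp_nat_mul]
  have hp' : (p : ℂ) ≠ 0 := Nat.cast_ne_zero.mpr hp
  have : (p : ℂ) * (2 * Real.pi * Complex.I / p) = 2 * Real.pi * Complex.I := by field_simp
  rw [this, Complex.exp_two_pi_mul_I]

theorem zeta_pow_mul (p : ℕ) (hp : p ≠ 0) (j n : ℕ) : Conj.zeta p ^ (j * (p * n)) = 1 := by
  rw [mul_comm j, mul_assoc, pow_mul, zeta_pow_p p hp, one_pow]

theorem coeff_conj_mul_push (p : ℕ) (hp : p ≠ 0) (A D : PowerSeries ℂ) (k : ℤ) (j n : ℕ) :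
    PowerSeries.coeff (p * n) (Conj.conjSeries p A j * Conj.pushSeries p k D j) =
      -(1 / (p : ℂ)) * ((p : ℂ) ^ k)⁻¹ *
        ∑ u ∈ Finset.range (p * n + 1),
          PowerSeries.coeff (p * u) A * PowerSeries.coeff (p * n - u) D := by
  rw [PowerSeries.coeff_mul, Finset.Nat.sum_antidiagonal_eq_sum_range_succ_mk, Finset.mul_sum]
  refine Finset.sum_congr rfl fun u hu => ?_
  rw [Finset.mem_range] at hu
  simp only [Conj.conjSeries, Conj.pushSeries, PowerSeries.coeff_mk]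
  have hz : Conj.zeta p ^ (j * u) * Conj.zeta p ^ (j * (p * n - u)) = 1 := by
    rw [← pow_add, ← mul_add, Nat.add_sub_cancel' (by omega), zeta_pow_mul p hp]
  linear_combination (-(1 / (p : ℂ)) * PowerSeries.coeff (p * u) A * ((p : ℂ) ^ k)⁻¹ *
    PowerSeries.coeff (p * n - u) D) * hz

theorem coeff_push (p : ℕ) (hp : p ≠ 0) (D : PowerSeries ℂ) (k : ℤ) (j n : ℕ) :
    PowerSeries.coeff (p * n) (Conj.pushSeries p k D j) =
      ((p : ℂ) ^ k)⁻¹ * PowerSeries.coeff (p * n) D := by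
  simp only [Conj.pushSeries, PowerSeries.coeff_mk]
  rw [zeta_pow_mul p hp, mul_one]

/-- The trace of `G * F_p` (`G` of weight 2 on `Γ₀(p)`, `F` of level one). -/
theorem coeff_trace_mul (p : ℕ) [Fact p.Prime]
    (hMC : Conj.StMainCoeff p) (hInf : Conj.StInfty p) (hTwo : Conj.StTwo p)
    (hAlg : Conj.StAlg p) (hRing : Conj.StRing p) (hNice : Conj.StNice p)
    (G : ModularForm (Gamma0 p) 2) (k : ℤ) (F : ModularForm 𝒮ℒ k)
    (Fp : ModularForm (Gamma0 p) k)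
    (hFp2 : qExpansion 1 Fp = PowerSeries.expand p (Fact.out : p.Prime).ne_zero (qExpansion 1 F))
    (hFp3 : ∀ j : ZMod p, Conj.tExp p (Conj.cj p k Fp (OnePoint.some j)) =
      Conj.pushSeries p k (qExpansion 1 F) j.val) (n : ℕ) :
    (qExpansion 1 (Fermat.Agent.S23.esymmMF (G.mul Fp) 1)).coeff n =
      PowerSeries.coeff n (qExpansion 1 G *
          PowerSeries.expand p (Fact.out : p.Prime).ne_zero (qExpansion 1 F)) -
        ((p : ℂ) ^ k)⁻¹ * ∑ u ∈ Finset.range (p * n + 1),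
          PowerSeries.coeff (p * u) (qExpansion 1 G) *
            PowerSeries.coeff (p * n - u) (qExpansion 1 F) := by
  have hp0 : p ≠ 0 := (Fact.out : p.Prime).ne_zero
  have hpc : (p : ℂ) ≠ 0 := Nat.cast_ne_zero.mpr hp0
  rw [coeff_trace p hMC]
  have hmul : ∀ x : OnePoint (ZMod p), Conj.tExp p (Conj.cj p (2 + k) (⇑(G.mul Fp)) x) =
      Conj.tExp p (Conj.cj p 2 G x) * Conj.tExp p (Conj.cj p k Fp x) := by
    intro x
    have h1 : (⇑(G.mul Fp) : ℍ → ℂ) = ⇑G * ⇑Fp := rfl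
    rw [h1, hAlg.1 2 k G Fp x]
    exact (hRing.2.1 _ _ (hNice 2 G x) (hNice k Fp x)).2
  rw [hmul OnePoint.infty, hInf 2 G, hInf k Fp, hFp2, ← map_mul, PowerSeries.coeff_expand_mul]
  have hj : ∀ j : ZMod p, PowerSeries.coeff (p * n)
      (Conj.tExp p (Conj.cj p (2 + k) (⇑(G.mul Fp)) (OnePoint.some j))) =
      -(1 / (p : ℂ)) * ((p : ℂ) ^ k)⁻¹ *
        ∑ u ∈ Finset.range (p * n + 1),
          PowerSeries.coeff (p * u) (qExpansion 1 G) *
            PowerSeries.coeff (p * n - u) (qExpansion 1 F) := by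
    intro j
    rw [hmul, hTwo G j, hFp3 j, coeff_conj_mul_push p hp0]
  rw [Finset.sum_congr rfl fun j _ => hj j, Finset.sum_const, Finset.card_univ, ZMod.card,
    nsmul_eq_mul]
  field_simp
  ring

/-- The trace of `F_p` (`F` of level one). -/
theorem coeff_trace_push (p : ℕ) [Fact p.Prime]
    (hMC : Conj.StMainCoeff p) (hInf : Conj.StInfty p)
    (k : ℤ) (F : ModularForm 𝒮ℒ k)
    (Fp : ModularForm (Gamma0 p) k)
    (hFp2 : qExpansion 1 Fp = PowerSeries.expand p (Fact.out : p.Prime).ne_zero (qExpansion 1 F))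
    (hFp3 : ∀ j : ZMod p, Conj.tExp p (Conj.cj p k Fp (OnePoint.some j)) =
      Conj.pushSeries p k (qExpansion 1 F) j.val) (n : ℕ) :
    (qExpansion 1 (Fermat.Agent.S23.esymmMF Fp 1)).coeff n =
      PowerSeries.coeff n
          (PowerSeries.expand p (Fact.out : p.Prime).ne_zero (qExpansion 1 F)) +
        (p : ℂ) * (((p : ℂ) ^ k)⁻¹ * PowerSeries.coeff (p * n) (qExpansion 1 F)) := by
  have hp0 : p ≠ 0 := (Fact.out : p.Prime).ne_zero
  rw [coeff_trace p hMC, hInf k Fp, hFp2, PowerSeries.coeff_expand_mul]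
  have hj : ∀ j : ZMod p, PowerSeries.coeff (p * n)
      (Conj.tExp p (Conj.cj p k Fp (OnePoint.some j))) =
      ((p : ℂ) ^ k)⁻¹ * PowerSeries.coeff (p * n) (qExpansion 1 F) := by
    intro j
    rw [hFp3 j, coeff_push p hp0]
  rw [Finset.sum_congr rfl fun j _ => hj j, Finset.sum_const, Finset.card_univ, ZMod.card,
    nsmul_eq_mul]


/-! ### Level one: weights `14` and `12` -/

/-- A level-one form of weight `14` with zero constant term has zero `q`-expansion. -/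
theorem qExp_eq_zero_of_weight_14 (k : ℤ) (hk : k = 14) (f : ModularForm 𝒮ℒ k)
    (h0 : PowerSeries.coeff 0 (qExpansion 1 f) = 0) : qExpansion 1 f = 0 := by
  obtain ⟨s, c, hs, hf⟩ := L1.H15.h15_stTRI ⊤ k f (fun n => Subring.mem_top _)
  have key : ∃ α : ℂ, qExpansion 1 f = PowerSeries.C α * (L1.qE4 ^ 2 * L1.qE6 ^ 1) := by
    rw [hf]
    refine Finset.sum_induction _
      (fun F => ∃ α : ℂ, F = PowerSeries.C α * (L1.qE4 ^ 2 * L1.qE6 ^ 1)) ?_ ?_ ?_
    · rintro F1 F2 ⟨α1, rfl⟩ ⟨α2, rfl⟩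
      exact ⟨α1 + α2, by rw [map_add]; ring⟩
    · exact ⟨0, by simp⟩
    · intro t ht
      obtain ⟨-, h⟩ := hs t ht
      have h1 : t.1 = 0 := by omega
      have h2 : t.2.1 = 2 := by omega
      have h3 : t.2.2 = 1 := by omega
      refine ⟨c t, ?_⟩
      rw [h1, h2, h3]
      ring
  obtain ⟨α, hα⟩ := key
  rw [hα] at h0 ⊢
  rw [PowerSeries.coeff_C_mul, L1.H15.h15_coeff_zero_mono 2 1, mul_one] at h0
  rw [h0, map_zero, zero_mul]

/-- A level-one form of weight `12` with zero constant term is a multiple of `Δ`. -/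
theorem qExp_eq_of_weight_12 (k : ℤ) (hk : k = 12) (f : ModularForm 𝒮ℒ k)
    (h0 : PowerSeries.coeff 0 (qExpansion 1 f) = 0) :
    ∃ α : ℂ, qExpansion 1 f = PowerSeries.C α * L1.qD := by
  obtain ⟨s, c, hs, hf⟩ := L1.H15.h15_stTRI ⊤ k f (fun n => Subring.mem_top _)
  have key : ∃ α β : ℂ, qExpansion 1 f =
      PowerSeries.C α * L1.qD + PowerSeries.C β * (L1.qE4 ^ 0 * L1.qE6 ^ 2) := by
    rw [hf]
    refine Finset.sum_induction _
      (fun F => ∃ α β : ℂ, F =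
        PowerSeries.C α * L1.qD + PowerSeries.C β * (L1.qE4 ^ 0 * L1.qE6 ^ 2)) ?_ ?_ ?_
    · rintro F1 F2 ⟨α1, β1, rfl⟩ ⟨α2, β2, rfl⟩
      exact ⟨α1 + α2, β1 + β2, by rw [map_add, map_add]; ring⟩
    · exact ⟨0, 0, by simp⟩
    · intro t ht
      obtain ⟨-, h⟩ := hs t ht
      have h1 : (t.1 = 1 ∧ t.2.1 = 0 ∧ t.2.2 = 0) ∨ (t.1 = 0 ∧ t.2.1 = 3 ∧ t.2.2 = 0) ∨
          (t.1 = 0 ∧ t.2.1 = 0 ∧ t.2.2 = 2) := by omega
      rcases h1 with ⟨h1, h2, h3⟩ | ⟨h1, h2, h3⟩ | ⟨h1, h2, h3⟩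
      · exact ⟨c t, 0, by rw [h1, h2, h3]; simp⟩
      · refine ⟨1728 * c t, c t, ?_⟩
        rw [h1, h2, h3, map_mul]
        linear_combination (-PowerSeries.C (c t)) * L1.H15.h15_qD_eq_poly
      · exact ⟨0, c t, by rw [h1, h2, h3]; simp⟩
  obtain ⟨α, β, hαβ⟩ := key
  refine ⟨α, ?_⟩
  rw [hαβ] at h0 ⊢
  rw [map_add, PowerSeries.coeff_C_mul, PowerSeries.coeff_C_mul, L1.H15.h15_coeff_zero_mono 0 2,
    L1.H15.h15_coeff_zero_qD, mul_zero, zero_add, mul_one] at h0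
  rw [h0, map_zero, zero_mul, add_zero]

/-! ### Coefficients of `A * expand p D` -/

theorem coeff_one_mul_expand (p : ℕ) (hp : p.Prime) (A D : PowerSeries ℂ)
    (hD0 : PowerSeries.coeff 0 D = 0) :
    PowerSeries.coeff 1 (A * PowerSeries.expand p hp.ne_zero D) = 0 := by
  rw [PowerSeries.coeff_mul, Finset.Nat.sum_antidiagonal_eq_sum_range_succ_mk]
  refine Finset.sum_eq_zero fun u hu => ?_
  rw [Finset.mem_range] at hu
  rw [PowerSeries.coeff_expand]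
  split_ifs with h
  · have h2 : 1 - u = 0 := Nat.eq_zero_of_dvd_of_lt h (by have := hp.two_le; omega)
    rw [h2, Nat.zero_div, hD0, mul_zero]
  · rw [mul_zero]

theorem coeff_p_mul_expand (p : ℕ) (hp : p.Prime) (A D : PowerSeries ℂ)
    (hD0 : PowerSeries.coeff 0 D = 0) :
    PowerSeries.coeff p (A * PowerSeries.expand p hp.ne_zero D) =
      PowerSeries.coeff 0 A * PowerSeries.coeff 1 D := by
  rw [PowerSeries.coeff_mul, Finset.Nat.sum_antidiagonal_eq_sum_range_succ_mk]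
  rw [Finset.sum_eq_single 0]
  · rw [PowerSeries.coeff_expand, if_pos (by simp), Nat.sub_zero, Nat.div_self hp.pos]
  · intro u hu hu0
    rw [Finset.mem_range] at hu
    rw [PowerSeries.coeff_expand]
    split_ifs with h
    · have h2 : p - u = 0 := Nat.eq_zero_of_dvd_of_lt h (by omega)
      rw [h2, Nat.zero_div, hD0, mul_zero]
    · rw [mul_zero]
  · intro h
    exact absurd (Finset.mem_range.mpr (Nat.succ_pos p)) h

/-! ### Arithmetic -/

theorem int_sum_split (p : ℕ) (hp : 0 < p) (a τ : ℕ → ℂ) (b M' : ℕ) (ha0 : a 0 = 1)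
    (ha : ∀ k, 1 ≤ k → ∃ c : ℤ, (b : ℂ) * a k = (M' : ℂ) * c)
    (hτ : ∀ n, ∃ t : ℤ, τ n = t) (N : ℕ) :
    ∃ K : ℤ, (b : ℂ) * ∑ u ∈ Finset.range (N + 1), a (p * u) * τ (N - u) =
      b * τ N + M' * K := by
  rw [Finset.sum_range_succ', Nat.mul_zero, ha0, one_mul, Nat.sub_zero, mul_add, Finset.mul_sum]
  have : ∃ K : ℤ, ∑ u ∈ Finset.range N, (b : ℂ) * (a (p * (u + 1)) * τ (N - (u + 1))) =
      M' * K := by
    refine Finset.sum_induction _ (fun F => ∃ K : ℤ, F = (M' : ℂ) * K) ?_ ?_ ?_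
    · rintro F1 F2 ⟨K1, rfl⟩ ⟨K2, rfl⟩
      exact ⟨K1 + K2, by push_cast; ring⟩
    · exact ⟨0, by simp⟩
    · intro u _
      obtain ⟨c, hc⟩ := ha (p * (u + 1)) (Nat.mul_pos hp (Nat.succ_pos u))
      obtain ⟨t, ht⟩ := hτ (N - (u + 1))
      exact ⟨c * t, by rw [← mul_assoc, hc, ht]; push_cast; ring⟩
  obtain ⟨K, hK⟩ := this
  exact ⟨K, by rw [hK]; ring⟩

theorem arith_core (p : ℕ) (hp : p.Prime) (a τ : ℕ → ℂ) (b M' : ℕ) (ha0 : a 0 = 1)
    (ha : ∀ k, 1 ≤ k → ∃ c : ℤ, (b : ℂ) * a k = (M' : ℂ) * c)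
    (hτ : ∀ n, ∃ t : ℤ, τ n = t)
    (h1 : ∑ u ∈ Finset.range (p * 1 + 1), a (p * u) * τ (p * 1 - u) = 0)
    (hpp : ∑ u ∈ Finset.range (p * p + 1), a (p * u) * τ (p * p - u) = (p : ℂ) ^ 12)
    (hTAU : τ (p * p) = τ p ^ 2 - (p : ℂ) ^ 11) :
    (M' : ℤ) ∣ (b : ℤ) ^ 2 * (p : ℤ) ^ 11 * ((p : ℤ) + 1) := by
  obtain ⟨K1, hK1⟩ := int_sum_split p hp.pos a τ b M' ha0 ha hτ (p * 1)
  obtain ⟨Kp, hKp⟩ := int_sum_split p hp.pos a τ b M' ha0 ha hτ (p * p)
  rw [h1, mul_zero] at hK1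
  rw [hpp] at hKp
  obtain ⟨t, ht⟩ := hτ p
  rw [mul_one, ht] at hK1
  rw [hTAU, ht] at hKp
  refine ⟨M' * K1 ^ 2 + b * Kp, ?_⟩
  have : (((b : ℤ) ^ 2 * (p : ℤ) ^ 11 * ((p : ℤ) + 1) : ℤ) : ℂ) =
      (((M' : ℤ) * (M' * K1 ^ 2 + b * Kp) : ℤ) : ℂ) := by
    push_cast
    linear_combination (b : ℂ) * hKp - ((b : ℂ) * t - M' * K1) * hK1
  exact_mod_cast this

theorem dvd_succ_of (p l e b : ℕ) (hp : p.Prime) (hl : l.Prime) (hlp : l ≠ p) (hb : ¬ l ∣ b)
    (h : ((l ^ e : ℕ) : ℤ) ∣ (b : ℤ) ^ 2 * (p : ℤ) ^ 11 * ((p : ℤ) + 1)) : l ^ e ∣ p + 1 := by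
  have h' : l ^ e ∣ b ^ 2 * p ^ 11 * (p + 1) := by exact_mod_cast h
  have c1 : Nat.Coprime (l ^ e) (b ^ 2) :=
    Nat.Coprime.pow _ _ ((Nat.Prime.coprime_iff_not_dvd hl).2 hb)
  have c2 : Nat.Coprime (l ^ e) (p ^ 11) :=
    Nat.Coprime.pow _ _ ((Nat.coprime_primes hl hp).2 hlp)
  exact (c1.mul_right c2).dvd_of_dvd_mul_left h'


/-! ### The Hecke relation `τ(p²) = τ(p)² - p¹¹` -/

/-- `Δ` as a level-one modular form of weight `12`. -/
def DeltaMF : ModularForm 𝒮ℒ 12 := CuspForm.toModularFormₗ CuspForm.discriminant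

theorem coe_DeltaMF : (⇑DeltaMF : ℍ → ℂ) = ModularForm.discriminant := rfl

theorem qExp_DeltaMF : qExpansion 1 DeltaMF = L1.qD := rfl

/-- `τ(p²) = τ(p)² - p¹¹` for the prime `p`, from the trace of `Δ(p z)`. -/
theorem tau_sq (p : ℕ) [Fact p.Prime]
    (hMC : Conj.StMainCoeff p) (hInf : Conj.StInfty p) (hPush : Conj.StPush p) :
    PowerSeries.coeff (p * p) L1.qD = (PowerSeries.coeff p L1.qD) ^ 2 - (p : ℂ) ^ 11 := by
  have hp : p.Prime := Fact.out
  have hpc : (p : ℂ) ≠ 0 := Nat.cast_ne_zero.mpr hp.ne_zero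
  obtain ⟨Dp, -, hDp2, hDp3⟩ := hPush 12 DeltaMF
  have hT := coeff_trace_push p hMC hInf 12 DeltaMF Dp hDp2 hDp3
  change ∀ n : ℕ, (qExpansion 1 (Fermat.Agent.S23.esymmMF Dp 1)).coeff n =
      PowerSeries.coeff n (PowerSeries.expand p hp.ne_zero L1.qD) +
        (p : ℂ) * (((p : ℂ) ^ (12 : ℤ))⁻¹ * PowerSeries.coeff (p * n) L1.qD) at hT
  have h0 : PowerSeries.coeff 0 (qExpansion 1 (Fermat.Agent.S23.esymmMF Dp 1)) = 0 := by
    rw [hT 0, PowerSeries.coeff_expand, if_pos (dvd_zero p), Nat.zero_div, Nat.mul_zero,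
      L1.H15.h15_coeff_zero_qD]
    ring
  obtain ⟨lam, hlam⟩ := qExp_eq_of_weight_12 _ (by norm_num) (Fermat.Agent.S23.esymmMF Dp 1) h0
  have e1 := hT 1
  have ep := hT p
  rw [hlam, PowerSeries.coeff_C_mul] at e1 ep
  rw [L1.H15.h15_coeff_one_qD, mul_one, PowerSeries.coeff_expand,
    if_neg (by rw [Nat.dvd_one]; exact hp.ne_one), zero_add, mul_one] at e1
  rw [PowerSeries.coeff_expand, if_pos (dvd_refl p), Nat.div_self hp.pos,
    L1.H15.h15_coeff_one_qD, e1] at ep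
  have h12 : ((p : ℂ) ^ (12 : ℤ)) = (p : ℂ) ^ 12 := by norm_cast
  rw [h12] at ep
  have hp12 : ((p : ℂ) ^ 12) ≠ 0 := pow_ne_zero _ hpc
  field_simp at ep
  linear_combination (-1 : ℂ) * ep

/-! ### The trace trick -/

/-- **The trace trick**: if `G ∈ M_2(Γ₀(p))` has constant term `1` and is `≡ 1` modulo `l ^ e`
(`l`-integrally, `l ≠ p`), then `l ^ e ∣ p + 1`. -/
theorem trace_trick (p : ℕ) [Fact p.Prime]
    (hMC : Conj.StMainCoeff p) (hInf : Conj.StInfty p) (hTwo : Conj.StTwo p)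
    (hPush : Conj.StPush p) (hAlg : Conj.StAlg p) (hRing : Conj.StRing p)
    (hNice : Conj.StNice p)
    (l e : ℕ) (hl : l.Prime) (hlp : l ≠ p) (G : ModularForm (Gamma0 p) 2)
    (hG : Asm.IsOneMod p l (l ^ e) G) : l ^ e ∣ p + 1 := by
  have hp : p.Prime := Fact.out
  have hpc : (p : ℂ) ≠ 0 := Nat.cast_ne_zero.mpr hp.ne_zero
  have hp12 : ((p : ℂ) ^ 12) ≠ 0 := pow_ne_zero _ hpc
  have h12 : ((p : ℂ) ^ (12 : ℤ)) = (p : ℂ) ^ 12 := by norm_cast
  obtain ⟨hG0, b, hb, hGb⟩ := hG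
  change PowerSeries.coeff 0 (qExpansion 1 G) = 1 at hG0
  change ∀ k : ℕ, 1 ≤ k → ∃ c : ℤ,
    (b : ℂ) * PowerSeries.coeff k (qExpansion 1 G) = ((l ^ e : ℕ) : ℂ) * (c : ℂ) at hGb
  have hτ : ∀ n, ∃ t : ℤ, PowerSeries.coeff n L1.qD = (t : ℂ) := L1.H15.h15_stINT.2.2.1
  have hTAU := tau_sq p hMC hInf hPush
  obtain ⟨Dp, -, hDp2, hDp3⟩ := hPush 12 DeltaMF
  have hT := coeff_trace_mul p hMC hInf hTwo hAlg hRing hNice G 12 DeltaMF Dp
    hDp2 hDp3
  change ∀ n : ℕ, (qExpansion 1 (Fermat.Agent.S23.esymmMF (G.mul Dp) 1)).coeff n =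
      PowerSeries.coeff n (qExpansion 1 G * PowerSeries.expand p hp.ne_zero L1.qD) -
        ((p : ℂ) ^ (12 : ℤ))⁻¹ * ∑ u ∈ Finset.range (p * n + 1),
          PowerSeries.coeff (p * u) (qExpansion 1 G) *
            PowerSeries.coeff (p * n - u) L1.qD at hT
  rw [h12] at hT
  have h0 : PowerSeries.coeff 0 (qExpansion 1 (Fermat.Agent.S23.esymmMF (G.mul Dp) 1)) = 0 := by
    have hc : PowerSeries.constantCoeff L1.qD = 0 := by
      rw [← PowerSeries.coeff_zero_eq_constantCoeff_apply]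
      exact L1.H15.h15_coeff_zero_qD
    rw [hT 0, PowerSeries.coeff_mul]
    simp [hc]
  have hz := qExp_eq_zero_of_weight_14 _ (by norm_num)
    (Fermat.Agent.S23.esymmMF (G.mul Dp) 1) h0
  have e1 := hT 1
  have ep := hT p
  rw [hz, map_zero, coeff_one_mul_expand p hp _ _ L1.H15.h15_coeff_zero_qD] at e1
  rw [hz, map_zero, coeff_p_mul_expand p hp _ _ L1.H15.h15_coeff_zero_qD, hG0,
    L1.H15.h15_coeff_one_qD, mul_one] at ep
  have s1 : ∑ u ∈ Finset.range (p * 1 + 1),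
      PowerSeries.coeff (p * u) (qExpansion 1 G) * PowerSeries.coeff (p * 1 - u) L1.qD = 0 := by
    have : ((p : ℂ) ^ 12)⁻¹ * ∑ u ∈ Finset.range (p * 1 + 1),
      PowerSeries.coeff (p * u) (qExpansion 1 G) * PowerSeries.coeff (p * 1 - u) L1.qD = 0 := by
      linear_combination e1
    rcases mul_eq_zero.mp this with h | h
    · exact absurd h (inv_ne_zero hp12)
    · exact h
  have sp : ∑ u ∈ Finset.range (p * p + 1),
      PowerSeries.coeff (p * u) (qExpansion 1 G) * PowerSeries.coeff (p * p - u) L1.qD =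
        (p : ℂ) ^ 12 := by
    have : ((p : ℂ) ^ 12)⁻¹ * ∑ u ∈ Finset.range (p * p + 1),
      PowerSeries.coeff (p * u) (qExpansion 1 G) * PowerSeries.coeff (p * p - u) L1.qD = 1 := by
      linear_combination ep
    field_simp at this
    exact this
  have hdvd := arith_core p hp (fun n => PowerSeries.coeff n (qExpansion 1 G))
    (fun n => PowerSeries.coeff n L1.qD) b (l ^ e) hG0 hGb hτ s1 sp hTAU
  exact dvd_succ_of p l e b hp hl hlp hb hdvd

/-- `[UP2a]` and `[UP3a]` from the `[CONJ]` interface. -/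
theorem tt_of (p : ℕ) [Fact p.Prime]
    (hMC : Conj.StMainCoeff p) (hInf : Conj.StInfty p) (hTwo : Conj.StTwo p)
    (hPush : Conj.StPush p) (hAlg : Conj.StAlg p) (hRing : Conj.StRing p)
    (hNice : Conj.StNice p) : Asm.StUP2a p ∧ Asm.StUP3a p := by
  have hp : p.Prime := Fact.out
  refine ⟨?_, ?_⟩
  · intro h5 h4 G hG
    have h := trace_trick p hMC hInf hTwo hPush hAlg hRing hNice 2 2 Nat.prime_two
      (by omega) G hG
    omega
  · intro h5 h3 G hG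
    have h := trace_trick p hMC hInf hTwo hPush hAlg hRing hNice 3 1 Nat.prime_three
      (by omega) G (by simpa using hG)
    omega

end Fermat.Agent.S16x.Tr.H13
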