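import Fermat.Agent.S16x.Tr.H1_Main
import Fermat.Agent.S24.H6_Formal
import Fermat.Agent.S16x.Asm.Defs

/-!
# S16, trace trick (helper1): the arithmetic, `Asm.StUP2a` and `Asm.StUP3a` from `ConjShape`

With `τ(n) ∈ ℤ`, `a_0 = 1` and `b a_k ∈ M' ℤ` (`k ≥ 1`) the main identity at `m = 1` and `m = p`
together with `τ(p)² = p^11 + τ(p²)` gives `M' ∣ b p^11 (p + 1)`.
-/

set_option autoImplicit false

open UpperHalfPlane ModularForm CongruenceSubgroup Matrix.SpecialLinearGroup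
open scoped MatrixGroups ModularForm Manifold Pointwise Real

namespace Fermat.Agent.S16x.Tr.H1

variable (p : ℕ) [Fact p.Prime]

variable (G : ModularForm (Gamma0 p : Subgroup (GL (Fin 2) ℝ)) 2)

/-! ### arithmetic -/

/-- Ramanujan's `τ` as an integer. -/
noncomputable def tauZ (n : ℕ) : ℤ := PowerSeries.coeff n Fermat.Agent.S24.Real.deltaZ

theorem tauC_eq (n : ℕ) : tauC n = (tauZ n : ℂ) := by
  rw [tauC, tauZ]
  have : qExpansion 1 ⇑CuspForm.discriminant = qExpansion 1 ModularForm.discriminant := rfl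
  rw [this, Fermat.Agent.S24.Real.qExpansion_discriminant]
  simp

theorem tauZ_zero : tauZ 0 = 0 := by
  have h := tauC_zero
  rw [tauC_eq] at h
  exact_mod_cast h

theorem tauZ_one : tauZ 1 = 1 := by
  have h := tauC_one
  rw [tauC_eq] at h
  exact_mod_cast h

theorem tauZ_sq : tauZ p * tauZ p = (p : ℤ) ^ 11 + tauZ (p * p) := by
  have h := tauC_sq p
  rw [tauC_eq, tauC_eq] at h
  exact_mod_cast h

omit [Fact p.Prime] in
theorem sum_split (hp : 0 < p) (a : ℕ → ℂ) (b M' : ℕ) (ha0 : a 0 = 1)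
    (hb : ∀ k : ℕ, 1 ≤ k → ∃ c : ℤ, (b : ℂ) * a k = (M' : ℂ) * (c : ℂ)) (n : ℕ) :
    ∃ X : ℤ, (b : ℂ) * ∑ kl ∈ Finset.HasAntidiagonal.antidiagonal n, tauC kl.1 * a (p * kl.2) =
      (((b : ℤ) * tauZ n + (M' : ℤ) * X : ℤ) : ℂ) := by
  choose! c hc using hb
  rcases n with _ | n
  · refine ⟨0, ?_⟩
    simp [tauC_zero, tauZ_zero]
  · refine ⟨∑ kl ∈ Finset.HasAntidiagonal.antidiagonal n, tauZ kl.1 * c (p * (kl.2 + 1)), ?_⟩
    rw [Finset.Nat.sum_antidiagonal_succ']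
    simp only [mul_zero, ha0, mul_one]
    rw [mul_add, Finset.mul_sum]
    push_cast
    rw [Finset.mul_sum, tauC_eq]
    congr 1
    refine Finset.sum_congr rfl fun kl _ => ?_
    have h1 : 1 ≤ p * (kl.2 + 1) := Nat.mul_pos hp (Nat.succ_pos _)
    have h2 := hc _ h1
    rw [tauC_eq]
    linear_combination (tauZ kl.1 : ℂ) * h2

theorem sum_deltaPCoeff_one (a : ℕ → ℂ) :
    ∑ kl ∈ Finset.HasAntidiagonal.antidiagonal 1, deltaPCoeff p kl.1 * a kl.2 = 0 := by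
  have hp := (Fact.out : p.Prime)
  refine Finset.sum_eq_zero fun kl hkl => ?_
  rw [Finset.HasAntidiagonal.mem_antidiagonal] at hkl
  have : deltaPCoeff p kl.1 = 0 := by
    rcases Nat.eq_zero_or_pos kl.1 with h0 | h0
    · rw [h0, deltaPCoeff_zero]
    · apply deltaPCoeff_of_not_dvd
      intro hd
      have := Nat.le_of_dvd h0 hd
      have := hp.two_le
      omega
  rw [this, zero_mul]

theorem sum_deltaPCoeff_p (a : ℕ → ℂ) :
    ∑ kl ∈ Finset.HasAntidiagonal.antidiagonal p, deltaPCoeff p kl.1 * a kl.2 =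
      (p : ℂ) ^ 11 * a 0 := by
  have hp := (Fact.out : p.Prime)
  rw [Finset.sum_eq_single (p, 0)]
  · have := deltaPCoeff_mul p 1
    rw [mul_one, tauC_one, mul_one] at this
    rw [this]
  · intro kl hkl hne
    rw [Finset.HasAntidiagonal.mem_antidiagonal] at hkl
    have : deltaPCoeff p kl.1 = 0 := by
      rcases Nat.eq_zero_or_pos kl.1 with h0 | h0
      · rw [h0, deltaPCoeff_zero]
      · apply deltaPCoeff_of_not_dvd
        intro hd
        have h1 := Nat.le_of_dvd h0 hd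
        have h2 : kl.1 = p := by omega
        have h3 : kl.2 = 0 := by omega
        exact hne (Prod.ext h2 h3)
    rw [this, zero_mul]
  · intro h
    exact absurd (Finset.HasAntidiagonal.mem_antidiagonal.mpr (add_zero p)) h

/-- **The trace trick**: if `G ∈ M_2(Γ₀(p))` has `a_0 = 1` and `b a_k ∈ M' ℤ` for `k ≥ 1`, then
`M' ∣ b p^11 (p + 1)`. -/
theorem trace_trick_dvd (hG : ConjShape p G) (b M' : ℕ)
    (ha0 : (qExpansion 1 G).coeff 0 = 1)
    (hb : ∀ k : ℕ, 1 ≤ k → ∃ c : ℤ, (b : ℂ) * (qExpansion 1 G).coeff k = (M' : ℂ) * (c : ℂ)) :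
    (M' : ℤ) ∣ (b : ℤ) * (p : ℤ) ^ 11 * ((p : ℤ) + 1) := by
  have hp := (Fact.out : p.Prime)
  obtain ⟨X₁, hX₁⟩ := sum_split p hp.pos (fun n => (qExpansion 1 G).coeff n) b M' ha0 hb (p * 1)
  obtain ⟨X₂, hX₂⟩ := sum_split p hp.pos (fun n => (qExpansion 1 G).coeff n) b M' ha0 hb (p * p)
  have h1 := main_identity p G hG 1
  have h2 := main_identity p G hG p
  rw [sum_deltaPCoeff_one p (fun n => (qExpansion 1 G).coeff n)] at h1
  rw [sum_deltaPCoeff_p p (fun n => (qExpansion 1 G).coeff n), ha0] at h2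
  rw [← h1] at hX₁
  rw [← h2] at hX₂
  rw [mul_one] at hX₁
  have e1 : (0 : ℤ) = (b : ℤ) * tauZ p + (M' : ℤ) * X₁ := by
    have : ((0 : ℤ) : ℂ) = (((b : ℤ) * tauZ p + (M' : ℤ) * X₁ : ℤ) : ℂ) := by
      rw [← hX₁]; simp
    exact_mod_cast this
  have e2 : (b : ℤ) * ((p : ℤ) * (p : ℤ) ^ 11) = (b : ℤ) * tauZ (p * p) + (M' : ℤ) * X₂ := by
    have : (((b : ℤ) * ((p : ℤ) * (p : ℤ) ^ 11) : ℤ) : ℂ) =
        (((b : ℤ) * tauZ (p * p) + (M' : ℤ) * X₂ : ℤ) : ℂ) := by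
      rw [← hX₂]; push_cast; ring
    exact_mod_cast this
  have e3 := tauZ_sq p
  refine ⟨X₂ - tauZ p * X₁, ?_⟩
  linear_combination e2 - tauZ p * e1 - (b : ℤ) * e3

/-- `Asm.StUP2a` from the shape of the conjugates. -/
theorem stUP2a_of_conjShape (hC : ∀ G : ModularForm (Gamma0 p : Subgroup (GL (Fin 2) ℝ)) 2,
    ConjShape p G) : Asm.StUP2a p := by
  intro _ h4 G hG
  obtain ⟨ha0, b, hb2, hb⟩ := hG
  have h := trace_trick_dvd p G (hC G) b 4 ha0 hb
  have hnat : 4 ∣ b * p ^ 11 * (p + 1) := by exact_mod_cast h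
  have hp2 : ¬ 2 ∣ p := by omega
  have c1 : Nat.Coprime 2 b := (Nat.Prime.coprime_iff_not_dvd Nat.prime_two).mpr hb2
  have c2 : Nat.Coprime 2 p := (Nat.Prime.coprime_iff_not_dvd Nat.prime_two).mpr hp2
  have c3 : Nat.Coprime (2 ^ 2) (b * p ^ 11) :=
    Nat.Coprime.pow_left 2 (Nat.Coprime.mul_right c1 (Nat.Coprime.pow_right 11 c2))
  have h5 : 4 ∣ p + 1 := (Nat.Coprime.dvd_mul_left c3).mp hnat
  omega

/-- `Asm.StUP3a` from the shape of the conjugates. -/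
theorem stUP3a_of_conjShape (hC : ∀ G : ModularForm (Gamma0 p : Subgroup (GL (Fin 2) ℝ)) 2,
    ConjShape p G) : Asm.StUP3a p := by
  intro _ h3 G hG
  obtain ⟨ha0, b, hb3, hb⟩ := hG
  have h := trace_trick_dvd p G (hC G) b 3 ha0 hb
  have hnat : 3 ∣ b * p ^ 11 * (p + 1) := by exact_mod_cast h
  have hp3 : ¬ 3 ∣ p := by omega
  have c1 : Nat.Coprime 3 b := (Nat.Prime.coprime_iff_not_dvd Nat.prime_three).mpr hb3
  have c2 : Nat.Coprime 3 p := (Nat.Prime.coprime_iff_not_dvd Nat.prime_three).mpr hp3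
  have c3 : Nat.Coprime 3 (b * p ^ 11) :=
    Nat.Coprime.mul_right c1 (Nat.Coprime.pow_right 11 c2)
  have h5 : 3 ∣ p + 1 := (Nat.Coprime.dvd_mul_left c3).mp hnat
  omega

end Fermat.Agent.S16x.Tr.H1
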