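import Mathlib

/-!
# S16, trace trick (helper1): coset representatives of `Γ₀(p)` in `SL₂(ℤ)` and the trace formula

For a prime `p` the `p + 1` elements `1, S T^j (j mod p)` represent the right cosets
`Γ₀(p) \ SL₂(ℤ)`.  Consequently the trace (Mathlib's `ModularForm.trace`) of a form `H` of
level `Γ₀(p)` to level one is `H + ∑_j H ∣ S T^j`.
-/

set_option autoImplicit false

open UpperHalfPlane ModularForm CongruenceSubgroup Matrix.SpecialLinearGroup
open scoped MatrixGroups ModularForm Manifold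

namespace Fermat.Agent.S16x.Tr.H1

/-- The matrix `S T^n`. -/
noncomputable def stMat (n : ℤ) : SL(2, ℤ) := ModularGroup.S * ModularGroup.T ^ n

theorem coe_stMat (n : ℤ) : ((stMat n : SL(2, ℤ)) : Matrix (Fin 2) (Fin 2) ℤ) = !![0, -1; 1, n] := by
  rw [stMat, Matrix.SpecialLinearGroup.coe_mul, ModularGroup.coe_S, ModularGroup.coe_T_zpow]
  ext i j
  fin_cases i <;> fin_cases j <;> simp [Matrix.mul_apply, Fin.sum_univ_two]

theorem stMat_mul_apply_one_zero (n : ℤ) (h : SL(2, ℤ)) :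
    ((stMat n * h : SL(2, ℤ)) : Matrix (Fin 2) (Fin 2) ℤ) 1 0 = h.1 0 0 + n * h.1 1 0 := by
  rw [Matrix.SpecialLinearGroup.coe_mul, coe_stMat]
  simp [Matrix.mul_apply, Fin.sum_univ_two]

theorem coe_stMat_inv (n : ℤ) :
    (((stMat n)⁻¹ : SL(2, ℤ)) : Matrix (Fin 2) (Fin 2) ℤ) = !![n, 1; -1, 0] := by
  rw [Matrix.SpecialLinearGroup.SL2_inv_expl]
  simp only [coe_stMat]
  ext i j
  fin_cases i <;> fin_cases j <;> simp

variable (p : ℕ)

/-- Representatives of `Γ₀(p) \ SL₂(ℤ)`: `1` and `S T^j`. -/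
noncomputable def rep : Option (ZMod p) → SL(2, ℤ)
  | none => 1
  | some j => stMat (j.val : ℤ)

@[simp] theorem rep_none : rep p none = 1 := rfl

@[simp] theorem rep_some (j : ZMod p) : rep p (some j) = stMat (j.val : ℤ) := rfl

variable [Fact p.Prime]

theorem rep_none_mul_mem_iff (h : SL(2, ℤ)) :
    rep p none * h ∈ Gamma0 p ↔ ((h.1 1 0 : ℤ) : ZMod p) = 0 := by
  rw [rep_none, one_mul, Gamma0_mem]

theorem rep_some_mul_mem_iff (j : ZMod p) (h : SL(2, ℤ)) :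
    rep p (some j) * h ∈ Gamma0 p ↔ ((h.1 0 0 : ℤ) : ZMod p) + j * ((h.1 1 0 : ℤ) : ZMod p) = 0 := by
  haveI : NeZero p := ⟨(Fact.out : p.Prime).ne_zero⟩
  rw [rep_some, Gamma0_mem, stMat_mul_apply_one_zero]
  push_cast
  rw [ZMod.natCast_zmod_val]

/-- Every element of `SL₂(ℤ)` lies in some coset `(rep x)⁻¹ Γ₀(p)`. -/
theorem exists_rep_mul_mem (h : SL(2, ℤ)) : ∃ x : Option (ZMod p), rep p x * h ∈ Gamma0 p := by
  by_cases hc : ((h.1 1 0 : ℤ) : ZMod p) = 0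
  · exact ⟨none, (rep_none_mul_mem_iff p h).mpr hc⟩
  · refine ⟨some (-((h.1 0 0 : ℤ) : ZMod p) / ((h.1 1 0 : ℤ) : ZMod p)), ?_⟩
    rw [rep_some_mul_mem_iff]
    field_simp
    ring

theorem rep_mul_rep_inv_mem_iff (x y : Option (ZMod p)) :
    rep p x * (rep p y)⁻¹ ∈ Gamma0 p ↔ x = y := by
  haveI : NeZero p := ⟨(Fact.out : p.Prime).ne_zero⟩
  have h1 : (1 : ZMod p) ≠ 0 := one_ne_zero
  constructor
  · intro h
    rcases x with _ | i <;> rcases y with _ | j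
    · rfl
    · exfalso
      rw [rep_none_mul_mem_iff, rep_some, coe_stMat_inv] at h
      simp at h
    · exfalso
      rw [rep_some_mul_mem_iff, rep_none, inv_one] at h
      simp at h
    · rw [rep_some_mul_mem_iff, rep_some, coe_stMat_inv] at h
      simp at h
      congr 1
      have : i = j := by
        have h' : j - i = 0 := by linear_combination h
        exact (sub_eq_zero.mp h').symm
      exact this
  · rintro rfl
    rw [mul_inv_cancel]
    exact Subgroup.one_mem _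

end Fermat.Agent.S16x.Tr.H1

namespace Fermat.Agent.S16x.Tr.H1

variable (p : ℕ) [Fact p.Prime]

/-- The map from the index set of representatives to Mathlib's coset space. -/
noncomputable def toQuot (x : Option (ZMod p)) :
    ↥(𝒮ℒ) ⧸ ((Gamma0 p : Subgroup (GL (Fin 2) ℝ)).subgroupOf 𝒮ℒ) :=
  QuotientGroup.mk ⟨mapGL ℝ (rep p x)⁻¹, ⟨_, rfl⟩⟩

theorem mapGL_mem_iff (γ : SL(2, ℤ)) :
    (mapGL ℝ γ : GL (Fin 2) ℝ) ∈ (Gamma0 p : Subgroup (GL (Fin 2) ℝ)) ↔ γ ∈ Gamma0 p :=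
  Subgroup.mem_map_iff_mem mapGL_injective

theorem toQuot_injective : Function.Injective (toQuot p) := by
  intro x y hxy
  rw [toQuot, toQuot, QuotientGroup.eq, Subgroup.mem_subgroupOf] at hxy
  have e : (((⟨mapGL ℝ (rep p x)⁻¹, ⟨_, rfl⟩⟩ : ↥(𝒮ℒ))⁻¹ * ⟨mapGL ℝ (rep p y)⁻¹, ⟨_, rfl⟩⟩ : ↥(𝒮ℒ)) :
      GL (Fin 2) ℝ) = mapGL ℝ (rep p x * (rep p y)⁻¹) := by
    simp [map_mul, map_inv]
  rw [e, mapGL_mem_iff] at hxy
  exact (rep_mul_rep_inv_mem_iff p x y).mp hxy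

theorem toQuot_surjective : Function.Surjective (toQuot p) := by
  intro q
  induction q using QuotientGroup.induction_on with
  | H g =>
    obtain ⟨g, h, rfl⟩ := g
    obtain ⟨x, hx⟩ := exists_rep_mul_mem p h
    refine ⟨x, ?_⟩
    rw [toQuot, QuotientGroup.eq, Subgroup.mem_subgroupOf]
    have e : (((⟨mapGL ℝ (rep p x)⁻¹, ⟨_, rfl⟩⟩ : ↥(𝒮ℒ))⁻¹ * ⟨mapGL ℝ h, ⟨h, rfl⟩⟩ : ↥(𝒮ℒ)) :
        GL (Fin 2) ℝ) = mapGL ℝ (rep p x * h) := by
      simp [map_mul, map_inv]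
    rw [e, mapGL_mem_iff]
    exact hx

theorem toQuot_bijective : Function.Bijective (toQuot p) :=
  ⟨toQuot_injective p, toQuot_surjective p⟩

theorem quotientFunc_toQuot {F : Type*} [FunLike F ℍ ℂ] {k : ℤ}
    [SlashInvariantFormClass F (Gamma0 p : Subgroup (GL (Fin 2) ℝ)) k] (f : F)
    (x : Option (ZMod p)) :
    SlashInvariantForm.quotientFunc f (toQuot p x) = (⇑f) ∣[k] (rep p x) := by
  rw [toQuot]
  change SlashInvariantForm.quotientFunc f ⟦_⟧ = _
  rw [SlashInvariantForm.quotientFunc_mk]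
  simp only [map_inv, inv_inv]
  rfl

/-- **Trace formula**: the trace to level one of a form of level `Γ₀(p)` is the sum of its
slashes by `1, S T^j (j mod p)`. -/
theorem trace_apply {F : Type*} [FunLike F ℍ ℂ] {k : ℤ}
    [ModularFormClass F (Gamma0 p : Subgroup (GL (Fin 2) ℝ)) k] (f : F) (z : ℍ) :
    ModularForm.trace 𝒮ℒ f z = ∑ x : Option (ZMod p), ((⇑f) ∣[k] (rep p x)) z := by
  rw [ModularForm.coe_trace, Finset.sum_apply]
  letI := Fintype.ofFinite (↥(𝒮ℒ) ⧸ ((Gamma0 p : Subgroup (GL (Fin 2) ℝ)).subgroupOf 𝒮ℒ))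
  rw [← (toQuot_bijective p).sum_comp]
  refine Finset.sum_congr rfl fun x _ => ?_
  rw [quotientFunc_toQuot]

end Fermat.Agent.S16x.Tr.H1
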