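import Fermat.Agent.S16x.Tr.H1_Cosets

/-!
# S16, trace trick (helper1): the cusp form `Δ_p = Δ ∣ diag(p, 1) = p^11 Δ(p z)` on `Γ₀(p)`
-/

set_option autoImplicit false

open UpperHalfPlane ModularForm CongruenceSubgroup Matrix.SpecialLinearGroup
open scoped MatrixGroups ModularForm Manifold Pointwise

namespace Fermat.Agent.S16x.Tr.H1

variable (p : ℕ) [Fact p.Prime]

theorem p_pos_real : (0 : ℝ) < p := by
  exact_mod_cast (Fact.out : p.Prime).pos

/-- The matrix `diag(p, 1)`. -/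
noncomputable def gP : GL (Fin 2) ℝ :=
  Matrix.GeneralLinearGroup.mkOfDetNeZero !![(p : ℝ), 0; 0, 1]
    (by rw [Matrix.det_fin_two_of]; simpa using (p_pos_real p).ne')

/-- The matrix `[1, j; 0, p]`. -/
noncomputable def betaP (j : ℤ) : GL (Fin 2) ℝ :=
  Matrix.GeneralLinearGroup.mkOfDetNeZero !![1, (j : ℝ); 0, (p : ℝ)]
    (by rw [Matrix.det_fin_two_of]; simpa using (p_pos_real p).ne')

theorem coe_gP : ((gP p : GL (Fin 2) ℝ) : Matrix (Fin 2) (Fin 2) ℝ) = !![(p : ℝ), 0; 0, 1] := rfl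

theorem coe_betaP (j : ℤ) :
    ((betaP p j : GL (Fin 2) ℝ) : Matrix (Fin 2) (Fin 2) ℝ) = !![1, (j : ℝ); 0, (p : ℝ)] := rfl

theorem det_gP : ((gP p).det : ℝ) = p := by
  rw [Matrix.GeneralLinearGroup.val_det_apply, coe_gP, Matrix.det_fin_two_of]; simp

theorem det_betaP (j : ℤ) : ((betaP p j).det : ℝ) = p := by
  rw [Matrix.GeneralLinearGroup.val_det_apply, coe_betaP, Matrix.det_fin_two_of]; simp

theorem coe_mapGL (γ : SL(2, ℤ)) :
    ((mapGL ℝ γ : GL (Fin 2) ℝ) : Matrix (Fin 2) (Fin 2) ℝ) =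
      !![(γ.1 0 0 : ℝ), (γ.1 0 1 : ℝ); (γ.1 1 0 : ℝ), (γ.1 1 1 : ℝ)] := by
  ext i j
  fin_cases i <;> fin_cases j <;> simp [mapGL_coe_matrix]

/-- `diag(p,1) * S T^j = S * [1, j; 0, p]`. -/
theorem gP_mul_stMat (j : ℤ) :
    gP p * mapGL ℝ (stMat j) = mapGL ℝ ModularGroup.S * betaP p j := by
  apply Units.ext
  rw [Units.val_mul, Units.val_mul, coe_gP, coe_betaP, coe_mapGL, coe_mapGL, coe_stMat,
    ModularGroup.coe_S]
  ext a b
  fin_cases a <;> fin_cases b <;> simp [Matrix.mul_apply, Fin.sum_univ_two]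

/-- For `γ ∈ Γ₀(p)` the conjugate `diag(p,1) γ diag(p,1)⁻¹` is integral. -/
theorem exists_gP_mul (γ : SL(2, ℤ)) (hγ : γ ∈ Gamma0 p) :
    ∃ γ' : SL(2, ℤ), gP p * mapGL ℝ γ = mapGL ℝ γ' * gP p := by
  rw [Gamma0_mem, ZMod.intCast_zmod_eq_zero_iff_dvd] at hγ
  obtain ⟨c', hc'⟩ := hγ
  have hdet : γ.1 0 0 * γ.1 1 1 - γ.1 0 1 * γ.1 1 0 = 1 := by
    have := γ.2
    rwa [Matrix.det_fin_two] at this
  have hdet' : (!![γ.1 0 0, p * γ.1 0 1; c', γ.1 1 1] : Matrix (Fin 2) (Fin 2) ℤ).det = 1 := by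
    rw [Matrix.det_fin_two_of]
    rw [hc'] at hdet
    linear_combination hdet
  refine ⟨⟨!![γ.1 0 0, p * γ.1 0 1; c', γ.1 1 1], hdet'⟩, ?_⟩
  apply Units.ext
  have e1 := coe_mapGL γ
  have e2 := coe_mapGL (⟨!![γ.1 0 0, p * γ.1 0 1; c', γ.1 1 1], hdet'⟩ : SL(2, ℤ))
  rw [Units.val_mul, Units.val_mul, coe_gP, e1, e2]
  have h10 : (γ.1 1 0 : ℝ) = (p : ℝ) * (c' : ℝ) := by exact_mod_cast hc'
  ext a b
  fin_cases a <;> fin_cases b <;> simp [Matrix.mul_apply, Fin.sum_univ_two, h10, mul_comm]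

theorem gamma0_le_conj :
    (Gamma0 p : Subgroup (GL (Fin 2) ℝ)) ≤ ConjAct.toConjAct (gP p)⁻¹ • 𝒮ℒ := by
  rintro _ ⟨γ, hγ, rfl⟩
  rw [Subgroup.mem_pointwise_smul_iff_inv_smul_mem, ← ConjAct.toConjAct_inv, inv_inv,
    ConjAct.smul_def, ConjAct.ofConjAct_toConjAct]
  obtain ⟨γ', h⟩ := exists_gP_mul p γ hγ
  refine ⟨γ', ?_⟩
  rw [h, mul_inv_cancel_right]

/-- The cusp form `Δ ∣ diag(p,1)` of weight `12` and level `Γ₀(p)`. -/
noncomputable def deltaP : CuspForm (Gamma0 p : Subgroup (GL (Fin 2) ℝ)) 12 where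
  toFun := discriminant ∣[(12 : ℤ)] gP p
  slash_action_eq' A hA :=
    (CuspForm.translate CuspForm.discriminant (gP p)).slash_action_eq' A (gamma0_le_conj p hA)
  holo' := (CuspForm.translate CuspForm.discriminant (gP p)).holo'
  zero_at_cusps' hc :=
    (CuspForm.translate CuspForm.discriminant (gP p)).zero_at_cusps' (hc.mono (gamma0_le_conj p))

theorem coe_deltaP : ⇑(deltaP p) = discriminant ∣[(12 : ℤ)] gP p := rfl

theorem det_gP_pos : 0 < ((gP p).det : ℝ) := by rw [det_gP]; exact p_pos_real p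

theorem det_betaP_pos (j : ℤ) : 0 < ((betaP p j).det : ℝ) := by rw [det_betaP]; exact p_pos_real p

theorem σ_gP (x : ℂ) : σ (gP p) x = x := by
  have h := det_gP_pos p
  rw [Matrix.GeneralLinearGroup.val_det_apply] at h
  simp only [σ, Matrix.GeneralLinearGroup.val_det_apply, if_pos h]
  rfl

theorem σ_betaP (j : ℤ) (x : ℂ) : σ (betaP p j) x = x := by
  have h := det_betaP_pos p j
  rw [Matrix.GeneralLinearGroup.val_det_apply] at h
  simp only [σ, Matrix.GeneralLinearGroup.val_det_apply, if_pos h]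
  rfl

theorem denom_gP (z : ℂ) : denom (gP p) z = 1 := by
  simp [denom, coe_gP]

theorem denom_betaP (j : ℤ) (z : ℂ) : denom (betaP p j) z = p := by
  simp [denom, coe_betaP]

theorem num_gP (z : ℂ) : num (gP p) z = p * z := by
  simp [num, coe_gP]

theorem num_betaP (j : ℤ) (z : ℂ) : num (betaP p j) z = z + j := by
  simp [num, coe_betaP]

theorem coe_gP_smul (z : ℍ) : ((gP p • z : ℍ) : ℂ) = p * z := by
  rw [coe_smul_of_det_pos (det_gP_pos p), num_gP, denom_gP, div_one]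

theorem coe_betaP_smul (j : ℤ) (z : ℍ) : ((betaP p j • z : ℍ) : ℂ) = (z + j) / p := by
  rw [coe_smul_of_det_pos (det_betaP_pos p j), num_betaP, denom_betaP]

theorem deltaP_apply (z : ℍ) : deltaP p z = (p : ℂ) ^ 11 * discriminant (gP p • z) := by
  change (discriminant ∣[(12 : ℤ)] gP p) z = _
  rw [ModularForm.slash_apply, σ_gP, denom_gP, det_gP, abs_of_pos (p_pos_real p)]
  simp
  ring

theorem deltaP_slash_stMat (j : ℤ) (z : ℍ) :
    ((⇑(deltaP p)) ∣[(12 : ℤ)] (stMat j)) z = (p : ℂ)⁻¹ * discriminant (betaP p j • z) := by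
  have h1 : (⇑(deltaP p)) ∣[(12 : ℤ)] (stMat j) = discriminant ∣[(12 : ℤ)] betaP p j := by
    rw [coe_deltaP, ModularForm.SL_slash]
    change (discriminant ∣[(12 : ℤ)] gP p) ∣[(12 : ℤ)] (mapGL ℝ (stMat j)) = _
    rw [← SlashAction.slash_mul, gP_mul_stMat, SlashAction.slash_mul]
    congr 1
    have := discriminant_S_invariant
    rw [ModularForm.SL_slash] at this
    exact this
  rw [h1, ModularForm.slash_apply, σ_betaP, denom_betaP, det_betaP, abs_of_pos (p_pos_real p)]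
  have hp : (p : ℂ) ≠ 0 := by exact_mod_cast (p_pos_real p).ne'
  simp only [Int.reduceSub, Int.reduceNeg, Complex.ofReal_natCast]
  rw [mul_assoc, mul_comm]
  congr 1
  field_simp

end Fermat.Agent.S16x.Tr.H1
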