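import Fermat.Agent.S16x.Tr.H1_Arith
import Fermat.Agent.S16x.Conj.H4_Fricke

/-!
# S16, trace trick (helper1): `Asm.StUP2a p` and `Asm.StUP3a p`, hypothesis-free (spare copy)

The shape of the conjugates (`ConjShape`) is helper4's `h4_slash_ST`.
-/

set_option autoImplicit false

open UpperHalfPlane ModularForm CongruenceSubgroup Matrix.SpecialLinearGroup
open scoped MatrixGroups ModularForm Manifold Pointwise Real

namespace Fermat.Agent.S16x.Tr.H1

variable (p : ℕ) [Fact p.Prime]

theorem conjShape (G : ModularForm (Gamma0 p : Subgroup (GL (Fin 2) ℝ)) 2) : ConjShape p G := by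
  intro j z
  have h := Fermat.Agent.S16x.Conj.H4.h4_slash_ST p G j z
  have e1 : stMat (j : ℤ) = ModularGroup.S * ModularGroup.T ^ j := by
    rw [stMat, zpow_natCast]
  rw [e1]
  have e2 : (fun n : ℕ => (-(p : ℂ)⁻¹ * (qExpansion 1 G).coeff (p * n)) * qj p j z ^ n) =
      fun n : ℕ => -(1 / (p : ℂ)) * (qExpansion 1 G).coeff (p * n) *
        Complex.exp (2 * π * Complex.I * n * ((z : ℂ) + j) / p) := by
    funext n
    rw [qj, ← Complex.exp_nat_mul, one_div]
    congr 2
    push_cast
    ring
  rw [e2]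
  exact h

/-- **[UP2a]**, hypothesis-free. -/
theorem stUP2a : Asm.StUP2a p := stUP2a_of_conjShape p (conjShape p)

/-- **[UP3a]**, hypothesis-free. -/
theorem stUP3a : Asm.StUP3a p := stUP3a_of_conjShape p (conjShape p)

end Fermat.Agent.S16x.Tr.H1
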