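import Fermat.Agent.S16x.Tr.H1_Cosets

/-!
# S16, trace trick (helper1): the `q`-expansion of a trace from `Γ₀(p)` to level one

If all the conjugates `f ∣ S T^j` of a form `f` of level `Γ₀(p)` have the expansion
`∑ h_n q_j^n` in the local parameters `q_j = exp(2πi (z + j)/p)`, then
`a_m(Tr f) = a_m(f) + p h_{pm}`.
-/

set_option autoImplicit false

open UpperHalfPlane ModularForm CongruenceSubgroup Matrix.SpecialLinearGroup
open scoped MatrixGroups ModularForm Manifold Pointwise Real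

namespace Fermat.Agent.S16x.Tr.H1

variable (p : ℕ) [Fact p.Prime]

/-- The local parameter `exp(2πi (z + j)/p)` of the `j`-th conjugate. -/
noncomputable def qj (j : ℤ) (z : ℍ) : ℂ := Complex.exp (2 * π * Complex.I * ((z : ℂ) + j) / p)

theorem qj_pow_p (j : ℤ) (z : ℍ) : qj p j z ^ p = Function.Periodic.qParam 1 z := by
  have hp : (p : ℂ) ≠ 0 := Nat.cast_ne_zero.mpr (Fact.out : p.Prime).ne_zero
  rw [qj, ← Complex.exp_nat_mul, Function.Periodic.qParam]
  have e : (p : ℂ) * (2 * π * Complex.I * ((z : ℂ) + j) / p) = 2 * π * Complex.I * z / (1 : ℝ) + j * (2 * π * Complex.I) := by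
    field_simp
    push_cast
    ring
  rw [e, Complex.exp_add, Complex.exp_int_mul_two_pi_mul_I, mul_one]

/-- `ζ = exp(2πi/p)`. -/
noncomputable def zetaP : ℂ := Complex.exp (2 * π * Complex.I / p)

theorem zetaP_isPrimitiveRoot : IsPrimitiveRoot (zetaP p) p :=
  Complex.isPrimitiveRoot_exp p (Fact.out : p.Prime).ne_zero

theorem qj_eq (j : ℕ) (z : ℍ) : qj p j z = qj p 0 z * zetaP p ^ j := by
  rw [qj, qj, zetaP, ← Complex.exp_nat_mul, ← Complex.exp_add]
  congr 1
  push_cast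
  ring

theorem sum_zetaP_pow (n : ℕ) :
    ∑ j ∈ Finset.range p, (zetaP p ^ j) ^ n = if p ∣ n then (p : ℂ) else 0 := by
  have hp := (Fact.out : p.Prime)
  have e : ∀ j, (zetaP p ^ j) ^ n = (zetaP p ^ n) ^ j := fun j => by
    rw [← pow_mul, ← pow_mul, mul_comm]
  simp_rw [e]
  split_ifs with h
  · obtain ⟨m, rfl⟩ := h
    have : zetaP p ^ (p * m) = 1 := by
      rw [pow_mul, (zetaP_isPrimitiveRoot p).pow_eq_one, one_pow]
    simp [this]
  · have hcop : n.Coprime p := (Nat.Coprime.symm ((Nat.Prime.coprime_iff_not_dvd hp).mpr h))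
    have hprim : IsPrimitiveRoot (zetaP p ^ n) p := (zetaP_isPrimitiveRoot p).pow_of_coprime n hcop
    exact hprim.geom_sum_eq_zero hp.one_lt

theorem sum_qj_pow (n : ℕ) (z : ℍ) :
    ∑ j ∈ Finset.range p, qj p j z ^ n =
      if p ∣ n then (p : ℂ) * Function.Periodic.qParam 1 z ^ (n / p) else 0 := by
  have e : ∀ j ∈ Finset.range p, qj p (j : ℕ) z ^ n = qj p 0 z ^ n * (zetaP p ^ j) ^ n := by
    intro j _
    rw [qj_eq, mul_pow]
  rw [Finset.sum_congr rfl e, ← Finset.mul_sum, sum_zetaP_pow]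
  split_ifs with h
  · obtain ⟨m, rfl⟩ := h
    rw [Nat.mul_div_cancel_left m (Fact.out : p.Prime).pos, pow_mul, qj_pow_p]
    ring
  · simp

end Fermat.Agent.S16x.Tr.H1

namespace Fermat.Agent.S16x.Tr.H1

local notation "𝕢" => Function.Periodic.qParam

theorem sum_zmod_val {M : Type*} [AddCommMonoid M] (n : ℕ) [NeZero n] (g : ℕ → M) :
    ∑ j : ZMod n, g j.val = ∑ i ∈ Finset.range n, g i := by
  obtain ⟨k, rfl⟩ := Nat.exists_eq_succ_of_ne_zero (NeZero.ne n)
  exact Fin.sum_univ_eq_sum_range g (k + 1)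

variable (p : ℕ) [Fact p.Prime]

theorem one_mem_strictPeriods_Gamma0 :
    (1 : ℝ) ∈ (Gamma0 p : Subgroup (GL (Fin 2) ℝ)).strictPeriods := by
  rw [strictPeriods_Gamma0]
  exact AddSubgroup.mem_zmultiples 1

/-- Expansion of the trace: if all the conjugates `f ∣ S T^j` have the expansion
`∑ h_n q_j^n` in the local parameters `q_j = exp(2πi (z + j)/p)`, then the trace of `f` has the
`q`-expansion `∑ (a_m(f) + p h_{pm}) q^m`. -/
theorem trace_hasSum {F : Type*} [FunLike F ℍ ℂ] {k : ℤ}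
    [ModularFormClass F (Gamma0 p : Subgroup (GL (Fin 2) ℝ)) k] (f : F) (h : ℕ → ℂ)
    (hconj : ∀ j : ℕ, j < p → ∀ z : ℍ,
      HasSum (fun n => h n * qj p j z ^ n) (((⇑f) ∣[k] (stMat (j : ℤ))) z))
    (z : ℍ) :
    HasSum (fun m => ((qExpansion 1 f).coeff m + p * h (p * m)) • 𝕢 1 z ^ m)
      (ModularForm.trace 𝒮ℒ f z) := by
  have hp := (Fact.out : p.Prime)
  haveI : NeZero p := ⟨hp.ne_zero⟩
  rw [trace_apply, Fintype.sum_option, rep_none]
  have e1 : ((⇑f) ∣[k] (1 : SL(2, ℤ))) z = f z := by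
    rw [SlashAction.slash_one]
  rw [e1]
  have e2 : ∑ j : ZMod p, ((⇑f) ∣[k] (rep p (some j))) z =
      ∑ j ∈ Finset.range p, ((⇑f) ∣[k] (stMat (j : ℤ))) z := by
    simp only [rep_some]
    exact sum_zmod_val p (fun j => ((⇑f) ∣[k] (stMat (j : ℤ))) z)
  rw [e2]
  -- the main part
  have h1 : HasSum (fun m => (qExpansion 1 f).coeff m * 𝕢 1 z ^ m) (f z) :=
    ModularForm.hasSum_qExpansion f one_pos (one_mem_strictPeriods_Gamma0 p) z
  have h2 : HasSum (fun n => ∑ j ∈ Finset.range p, h n * qj p j z ^ n)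
      (∑ j ∈ Finset.range p, ((⇑f) ∣[k] (stMat (j : ℤ))) z) :=
    hasSum_sum fun j hj => hconj j (Finset.mem_range.mp hj) z
  have h3 : HasSum (fun m => (p : ℂ) * h (p * m) * 𝕢 1 z ^ m)
      (∑ j ∈ Finset.range p, ((⇑f) ∣[k] (stMat (j : ℤ))) z) := by
    have hinj : Function.Injective (fun m : ℕ => p * m) :=
      fun a b hab => Nat.eq_of_mul_eq_mul_left hp.pos hab
    have key : ∀ n, ∑ j ∈ Finset.range p, h n * qj p j z ^ n =
        if p ∣ n then h n * ((p : ℂ) * 𝕢 1 z ^ (n / p)) else 0 := by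
      intro n
      rw [← Finset.mul_sum]
      have := sum_qj_pow p n z
      rw [this]
      split_ifs <;> simp
    rw [← Function.Injective.hasSum_iff hinj] at h2
    · convert h2 using 1
      funext m
      simp only [Function.comp_apply]
      rw [key, if_pos (dvd_mul_right p m), Nat.mul_div_cancel_left m hp.pos]
      ring
    · intro n hn
      rw [key, if_neg]
      rintro ⟨m, rfl⟩
      exact hn ⟨m, rfl⟩
  convert h1.add h3 using 1
  funext m
  simp only [smul_eq_mul]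
  ring

theorem trace_qExpansion_coeff {F : Type*} [FunLike F ℍ ℂ] {k : ℤ}
    [ModularFormClass F (Gamma0 p : Subgroup (GL (Fin 2) ℝ)) k] (f : F) (h : ℕ → ℂ)
    (hconj : ∀ j : ℕ, j < p → ∀ z : ℍ,
      HasSum (fun n => h n * qj p j z ^ n) (((⇑f) ∣[k] (stMat (j : ℤ))) z))
    (m : ℕ) :
    (qExpansion 1 (ModularForm.trace 𝒮ℒ f)).coeff m = (qExpansion 1 f).coeff m + p * h (p * m) :=
  (ModularFormClass.qExpansion_coeff_unique one_pos one_mem_strictPeriods_SL
    (trace_hasSum p f h hconj) m).symm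

end Fermat.Agent.S16x.Tr.H1
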