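import Fermat.Agent.S16x.Tr.H1_DeltaP
import Fermat.Agent.S16x.Tr.H1_TraceExp

/-!
# S16, trace trick (helper1): the relation `τ(p²) = τ(p)² - p^11` from the trace of `Δ_p`
-/

set_option autoImplicit false

open UpperHalfPlane ModularForm CongruenceSubgroup Matrix.SpecialLinearGroup
open scoped MatrixGroups ModularForm Manifold Pointwise Real

namespace Fermat.Agent.S16x.Tr.H1

local notation "𝕢" => Function.Periodic.qParam

/-- The coefficients of `Δ` (Ramanujan's `τ`, as complex numbers). -/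
noncomputable def tauC (n : ℕ) : ℂ := (qExpansion 1 CuspForm.discriminant).coeff n

theorem tauC_one : tauC 1 = 1 := discriminant_qExpansion_coeff_one

theorem tauC_zero : tauC 0 = 0 := by
  rw [tauC]
  have h := CuspFormClass.qExpansion_coeff_zero CuspForm.discriminant one_pos
    one_mem_strictPeriods_SL
  simpa using h

variable (p : ℕ) [Fact p.Prime]

theorem qParam_betaP_smul (j : ℤ) (z : ℍ) : 𝕢 1 ((betaP p j • z : ℍ) : ℂ) = qj p j z := by
  rw [coe_betaP_smul, Function.Periodic.qParam, qj]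
  congr 1
  push_cast
  ring

theorem qParam_gP_smul (z : ℍ) : 𝕢 1 ((gP p • z : ℍ) : ℂ) = 𝕢 1 z ^ p := by
  rw [coe_gP_smul, Function.Periodic.qParam, Function.Periodic.qParam, ← Complex.exp_nat_mul]
  congr 1
  push_cast
  ring

/-- A level-one form evaluated at `(z + j)/p` is `∑ a_n q_j^n`. -/
theorem hasSum_betaP_smul {k : ℤ} (F : ModularForm 𝒮ℒ k) (j : ℤ) (z : ℍ) :
    HasSum (fun n => (qExpansion 1 F).coeff n * qj p j z ^ n) (F (betaP p j • z)) := by
  have h := ModularForm.hasSum_qExpansion F one_pos one_mem_strictPeriods_SL (betaP p j • z)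
  rw [qParam_betaP_smul] at h
  simpa only [smul_eq_mul] using h

theorem hasSum_discriminant_betaP_smul (j : ℤ) (z : ℍ) :
    HasSum (fun n => tauC n * qj p j z ^ n) (discriminant (betaP p j • z)) := by
  have h := ModularForm.hasSum_qExpansion CuspForm.discriminant one_pos one_mem_strictPeriods_SL
    (betaP p j • z)
  rw [qParam_betaP_smul] at h
  exact h

/-- The conjugates of `Δ_p`. -/
theorem deltaP_hconj (j : ℕ) (z : ℍ) :
    HasSum (fun n => ((p : ℂ)⁻¹ * tauC n) * qj p j z ^ n)
      (((⇑(deltaP p)) ∣[(12 : ℤ)] (stMat (j : ℤ))) z) := by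
  rw [deltaP_slash_stMat]
  have h := (hasSum_discriminant_betaP_smul p j z).mul_left ((p : ℂ)⁻¹)
  have e : (fun n => ((p : ℂ)⁻¹ * tauC n) * qj p j z ^ n) =
      fun n => (p : ℂ)⁻¹ * (tauC n * qj p j z ^ n) := funext fun n => by ring
  rw [e]
  exact h

/-- The coefficients of `Δ_p = p^11 Δ(p z)`. -/
noncomputable def deltaPCoeff (m : ℕ) : ℂ := (p : ℂ) ^ 11 * (if p ∣ m then tauC (m / p) else 0)

theorem deltaP_hasSum (z : ℍ) :
    HasSum (fun m => deltaPCoeff p m * 𝕢 1 z ^ m) (deltaP p z) := by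
  have hp := (Fact.out : p.Prime)
  rw [deltaP_apply]
  have h := ModularForm.hasSum_qExpansion CuspForm.discriminant one_pos one_mem_strictPeriods_SL
    (gP p • z)
  rw [qParam_gP_smul] at h
  have h' : HasSum (fun n => tauC n * 𝕢 1 z ^ (p * n)) (discriminant (gP p • z)) := by
    have e : (fun n => tauC n * 𝕢 1 z ^ (p * n)) =
        fun n => (qExpansion 1 CuspForm.discriminant).coeff n * (𝕢 1 z ^ p) ^ n :=
      funext fun n => by rw [← pow_mul]; rfl
    rw [e]
    exact h
  have hinj : Function.Injective (fun m : ℕ => p * m) :=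
    fun a b hab => Nat.eq_of_mul_eq_mul_left hp.pos hab
  have h2 : HasSum (fun m => (if p ∣ m then tauC (m / p) else 0) * 𝕢 1 z ^ m)
      (discriminant (gP p • z)) := by
    rw [← Function.Injective.hasSum_iff hinj]
    · convert h' using 1
      funext n
      simp only [Function.comp_apply]
      rw [if_pos (dvd_mul_right p n), Nat.mul_div_cancel_left n hp.pos]
    · intro n hn
      rw [if_neg, zero_mul]
      rintro ⟨m, rfl⟩
      exact hn ⟨m, rfl⟩
  have h3 := h2.mul_left ((p : ℂ) ^ 11)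
  have e : (fun m => deltaPCoeff p m * 𝕢 1 z ^ m) =
      fun m => (p : ℂ) ^ 11 * ((if p ∣ m then tauC (m / p) else 0) * 𝕢 1 z ^ m) :=
    funext fun m => by rw [deltaPCoeff]; ring
  rw [e]
  exact h3

theorem qExpansion_deltaP_coeff (m : ℕ) :
    (qExpansion 1 (deltaP p)).coeff m = deltaPCoeff p m :=
  (ModularFormClass.qExpansion_coeff_unique one_pos (one_mem_strictPeriods_Gamma0 p)
    (fun z => by simpa only [smul_eq_mul] using deltaP_hasSum p z) m).symm

theorem deltaPCoeff_zero : deltaPCoeff p 0 = 0 := by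
  rw [deltaPCoeff, if_pos (dvd_zero p), Nat.zero_div, tauC_zero, mul_zero]

theorem deltaPCoeff_of_not_dvd {m : ℕ} (h : ¬ p ∣ m) : deltaPCoeff p m = 0 := by
  rw [deltaPCoeff, if_neg h, mul_zero]

theorem deltaPCoeff_mul (m : ℕ) : deltaPCoeff p (p * m) = (p : ℂ) ^ 11 * tauC m := by
  rw [deltaPCoeff, if_pos (dvd_mul_right p m),
    Nat.mul_div_cancel_left m (Fact.out : p.Prime).pos]

/-- The coefficients of the trace of `Δ_p`. -/
theorem trace_deltaP_coeff (m : ℕ) :
    (qExpansion 1 (ModularForm.trace 𝒮ℒ (deltaP p))).coeff m =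
      deltaPCoeff p m + tauC (p * m) := by
  have hp : (p : ℂ) ≠ 0 := Nat.cast_ne_zero.mpr (Fact.out : p.Prime).ne_zero
  rw [trace_qExpansion_coeff p (deltaP p) (fun n => (p : ℂ)⁻¹ * tauC n)
    (fun j _ z => deltaP_hconj p j z) m, qExpansion_deltaP_coeff]
  congr 1
  field_simp

end Fermat.Agent.S16x.Tr.H1
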