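import Fermat.Agent.S16x.Tr.H1_Hecke

/-!
# S16, trace trick (helper1): the main identity

For `G ∈ M_2(Γ₀(p))` whose conjugates have the shape `G ∣ S T^j = -(1/p) ∑ a_{pn} q_j^n`
(`ConjShape`), the trace of `Δ_p G` (weight 14, level one, cuspidal) vanishes; comparing
coefficients gives `p ∑_{i+k=m} a_i(Δ_p) a_k = ∑_{i+k=pm} τ(i) a_{pk}`.
-/

set_option autoImplicit false

open UpperHalfPlane ModularForm CongruenceSubgroup Matrix.SpecialLinearGroup
open scoped MatrixGroups ModularForm Manifold Pointwise Real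

namespace Fermat.Agent.S16x.Tr.H1

local notation "𝕢" => Function.Periodic.qParam

/-- Cauchy product of two convergent power series at the same point. -/
theorem hasSum_cauchy_mul {u v : ℕ → ℂ} {x A B : ℂ}
    (hu : HasSum (fun n => u n * x ^ n) A) (hv : HasSum (fun n => v n * x ^ n) B) :
    HasSum (fun n => (∑ kl ∈ Finset.HasAntidiagonal.antidiagonal n, u kl.1 * v kl.2) * x ^ n) (A * B) := by
  have hf : Summable fun n => ‖u n * x ^ n‖ := summable_norm_iff.mpr hu.summable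
  have hg : Summable fun n => ‖v n * x ^ n‖ := summable_norm_iff.mpr hv.summable
  have hs := (summable_norm_sum_mul_antidiagonal_of_summable_norm hf hg).of_norm
  have ht := tsum_mul_tsum_eq_tsum_sum_antidiagonal_of_summable_norm hf hg
  rw [hu.tsum_eq, hv.tsum_eq] at ht
  have e : (fun n => (∑ kl ∈ Finset.HasAntidiagonal.antidiagonal n, u kl.1 * v kl.2) * x ^ n) =
      fun n => ∑ kl ∈ Finset.HasAntidiagonal.antidiagonal n, (u kl.1 * x ^ kl.1) * (v kl.2 * x ^ kl.2) := by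
    funext n
    rw [Finset.sum_mul]
    refine Finset.sum_congr rfl fun kl hkl => ?_
    rw [Finset.HasAntidiagonal.mem_antidiagonal] at hkl
    rw [← hkl, pow_add]
    ring
  rw [e, ht]
  exact hs.hasSum

theorem levelOne_eq_zero_of_weight_two {k : ℤ} (hk : k = 2) (f : ModularForm 𝒮ℒ k) : f = 0 := by
  subst hk
  have h := ModularForm.levelOne_weight_two_rank_zero
  rw [rank_zero_iff_forall_zero] at h
  exact h f

theorem levelOne_cusp_eq_zero {k : ℤ} (hk : k - 12 = 2) (f : CuspForm 𝒮ℒ k) : f = 0 := by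
  have h := levelOne_eq_zero_of_weight_two hk (CuspForm.discriminantEquiv f)
  exact (LinearEquiv.map_eq_zero_iff _).mp h

variable (p : ℕ) [Fact p.Prime]

/-- The Hecke relation for `Δ` at `p`, from the trace of `Δ_p`. -/
theorem tauC_hecke (m : ℕ) : tauC p * tauC m = deltaPCoeff p m + tauC (p * m) := by
  obtain ⟨c, hc⟩ := CuspForm.exists_smul_discriminant_of_weight_eq_twelve
    (CuspForm.trace 𝒮ℒ (deltaP p))
  have hcoe : (⇑(ModularForm.trace 𝒮ℒ (deltaP p)) : ℍ → ℂ) = c • ⇑CuspForm.discriminant := by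
    have : (⇑(CuspForm.trace 𝒮ℒ (deltaP p)) : ℍ → ℂ) = ⇑(ModularForm.trace 𝒮ℒ (deltaP p)) := rfl
    rw [← this, ← hc]
    rfl
  have key : ∀ m, c * tauC m = deltaPCoeff p m + tauC (p * m) := by
    intro m
    rw [← trace_deltaP_coeff, hcoe,
      UpperHalfPlane.qExpansion_smul
        (ModularFormClass.analyticAt_cuspFunction_zero CuspForm.discriminant one_pos
          one_mem_strictPeriods_SL)]
    simp [tauC]
  have h1 := key 1
  rw [tauC_one, mul_one, mul_one, deltaPCoeff_of_not_dvd p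
    (fun h => (Fact.out : p.Prime).one_lt.ne' (Nat.dvd_one.mp h)), zero_add] at h1
  rw [← h1]
  exact key m

/-- `τ(p)² = p^11 + τ(p²)`. -/
theorem tauC_sq : tauC p * tauC p = (p : ℂ) ^ 11 + tauC (p * p) := by
  rw [tauC_hecke p p]
  congr 1
  have := deltaPCoeff_mul p 1
  rw [mul_one, tauC_one, mul_one] at this
  exact this

/-- The shape of the conjugates of a weight-two form `G` of level `Γ₀(p)`:
`G ∣ S T^j = -(1/p) ∑ a_{pn} q_j^n`. -/
def ConjShape (G : ModularForm (Gamma0 p : Subgroup (GL (Fin 2) ℝ)) 2) : Prop :=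
  ∀ j : ℕ, ∀ z : ℍ,
    HasSum (fun n => (-(p : ℂ)⁻¹ * (qExpansion 1 G).coeff (p * n)) * qj p j z ^ n)
      (((⇑G) ∣[(2 : ℤ)] (stMat (j : ℤ))) z)

variable (G : ModularForm (Gamma0 p : Subgroup (GL (Fin 2) ℝ)) 2)

/-- `H = Δ_p G`, a cusp form of weight `14` and level `Γ₀(p)`. -/
noncomputable def prodH : CuspForm (Gamma0 p : Subgroup (GL (Fin 2) ℝ)) (12 + 2) :=
  (deltaP p).mulModularForm G

theorem coe_prodH : ⇑(prodH p G) = ⇑(deltaP p) * ⇑G := rfl

theorem prodH_hconj (hG : ConjShape p G) (j : ℕ) (z : ℍ) :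
    HasSum (fun n => (∑ kl ∈ Finset.HasAntidiagonal.antidiagonal n,
        ((p : ℂ)⁻¹ * tauC kl.1) * (-(p : ℂ)⁻¹ * (qExpansion 1 G).coeff (p * kl.2))) * qj p j z ^ n)
      (((⇑(prodH p G)) ∣[(12 + 2 : ℤ)] (stMat (j : ℤ))) z) := by
  have e : ((⇑(prodH p G)) ∣[(12 + 2 : ℤ)] (stMat (j : ℤ))) =
      ((⇑(deltaP p)) ∣[(12 : ℤ)] (stMat (j : ℤ))) * ((⇑G) ∣[(2 : ℤ)] (stMat (j : ℤ))) :=
    ModularForm.mul_slash_SL2 12 2 (stMat (j : ℤ)) (⇑(deltaP p)) (⇑G)
  have e' : ((⇑(prodH p G)) ∣[(12 + 2 : ℤ)] (stMat (j : ℤ))) z =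
      (((⇑(deltaP p)) ∣[(12 : ℤ)] (stMat (j : ℤ))) z) * (((⇑G) ∣[(2 : ℤ)] (stMat (j : ℤ))) z) :=
    congrFun e z
  rw [e']
  exact hasSum_cauchy_mul (u := fun n => (p : ℂ)⁻¹ * tauC n)
    (v := fun n => -(p : ℂ)⁻¹ * (qExpansion 1 G).coeff (p * n)) (deltaP_hconj p j z) (hG j z)

theorem prodH_coeff (m : ℕ) :
    (qExpansion 1 (prodH p G)).coeff m =
      ∑ kl ∈ Finset.HasAntidiagonal.antidiagonal m,
        deltaPCoeff p kl.1 * (qExpansion 1 G).coeff kl.2 := by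
  rw [coe_prodH, ModularForm.qExpansion_mul_coe one_pos (one_mem_strictPeriods_Gamma0 p)
    (deltaP p) G, PowerSeries.coeff_mul]
  refine Finset.sum_congr rfl fun kl _ => ?_
  rw [qExpansion_deltaP_coeff]

theorem trace_prodH_coeff (m : ℕ) :
    (qExpansion 1 (ModularForm.trace 𝒮ℒ (prodH p G))).coeff m = 0 := by
  have h := levelOne_cusp_eq_zero (by norm_num) (CuspForm.trace 𝒮ℒ (prodH p G))
  have hcoe : (⇑(ModularForm.trace 𝒮ℒ (prodH p G)) : ℍ → ℂ) = 0 := by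
    have : (⇑(CuspForm.trace 𝒮ℒ (prodH p G)) : ℍ → ℂ) = ⇑(ModularForm.trace 𝒮ℒ (prodH p G)) := rfl
    rw [← this, h]
    rfl
  rw [hcoe, UpperHalfPlane.qExpansion_zero]
  simp

/-- The main identity of the trace trick. -/
theorem main_identity (hG : ConjShape p G) (m : ℕ) :
    (p : ℂ) * ∑ kl ∈ Finset.HasAntidiagonal.antidiagonal m,
        deltaPCoeff p kl.1 * (qExpansion 1 G).coeff kl.2 =
      ∑ kl ∈ Finset.HasAntidiagonal.antidiagonal (p * m),
        tauC kl.1 * (qExpansion 1 G).coeff (p * kl.2) := by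
  have hp : (p : ℂ) ≠ 0 := Nat.cast_ne_zero.mpr (Fact.out : p.Prime).ne_zero
  have h := trace_qExpansion_coeff p (prodH p G) _ (fun j _ z => prodH_hconj p G hG j z) m
  rw [trace_prodH_coeff, prodH_coeff] at h
  have e : ∑ kl ∈ Finset.HasAntidiagonal.antidiagonal (p * m),
      ((p : ℂ)⁻¹ * tauC kl.1) * (-(p : ℂ)⁻¹ * (qExpansion 1 G).coeff (p * kl.2)) =
      -((p : ℂ)⁻¹ * (p : ℂ)⁻¹) * ∑ kl ∈ Finset.HasAntidiagonal.antidiagonal (p * m),
        tauC kl.1 * (qExpansion 1 G).coeff (p * kl.2) := by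
    rw [Finset.mul_sum]
    refine Finset.sum_congr rfl fun kl _ => ?_
    ring
  rw [e] at h
  have h2 : (p : ℂ) * 0 = (p : ℂ) * (∑ kl ∈ Finset.HasAntidiagonal.antidiagonal m,
        deltaPCoeff p kl.1 * (qExpansion 1 G).coeff kl.2 +
      (p : ℂ) * (-((p : ℂ)⁻¹ * (p : ℂ)⁻¹) * ∑ kl ∈ Finset.HasAntidiagonal.antidiagonal (p * m),
        tauC kl.1 * (qExpansion 1 G).coeff (p * kl.2))) := by rw [← h]
  have h3 : (p : ℂ) * ((p : ℂ) * (-((p : ℂ)⁻¹ * (p : ℂ)⁻¹) *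
      ∑ kl ∈ Finset.HasAntidiagonal.antidiagonal (p * m),
        tauC kl.1 * (qExpansion 1 G).coeff (p * kl.2))) =
      - ∑ kl ∈ Finset.HasAntidiagonal.antidiagonal (p * m),
        tauC kl.1 * (qExpansion 1 G).coeff (p * kl.2) := by
    field_simp
  rw [mul_zero, mul_add, h3] at h2
  linear_combination -h2

end Fermat.Agent.S16x.Tr.H1
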