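import Fermat.Agent.S16x.L1.H15_Tri
import Fermat.Agent.S16x.L1.H15_Poly

/-!
# S16, trace trick [TT] (hedge, helper23): the two level-one facts

* `h23_wt14` : a level-one form of weight `14` with vanishing constant term has `q`-expansion `0`;
* `h23_wt12` : a level-one form of weight `12` with vanishing constant term has `q`-expansion
  `c * Δ`.

Both from the landed triangular basis `L1.H15.h15_stTRI` (with `R = ⊤`).
-/

set_option autoImplicit false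

open ModularForm UpperHalfPlane PowerSeries
open scoped MatrixGroups

namespace Fermat.Agent.S16x.Tr.H23

open Fermat.Agent.S16x.L1 Fermat.Agent.S16x.L1.H15

theorem h23_wt14 (k : ℤ) (hk : k = 14) (f : ModularForm 𝒮ℒ k)
    (h0 : coeff 0 (qExpansion 1 f) = 0) : qExpansion 1 f = 0 := by
  obtain ⟨s, c, hs, hq⟩ := h15_stTRI ⊤ k f (fun n => Subring.mem_top _)
  have hterm : ∀ t ∈ s, C (c t) * qD ^ t.1 * qE4 ^ t.2.1 * qE6 ^ t.2.2
      = C (c t) * (qE4 ^ 2 * qE6) := by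
    intro t ht
    obtain ⟨-, h⟩ := hs t ht
    have h1 : t.1 = 0 ∧ t.2.1 = 2 ∧ t.2.2 = 1 := by omega
    rw [h1.1, h1.2.1, h1.2.2]
    ring
  rw [hq, Finset.sum_congr rfl hterm, ← Finset.sum_mul, ← map_sum] at h0 ⊢
  rw [coeff_C_mul] at h0
  have h1 : coeff 0 (qE4 ^ 2 * qE6) = (1 : ℂ) := by
    have := h15_coeff_zero_mono 2 1
    rwa [pow_one] at this
  rw [h1, mul_one] at h0
  rw [h0, map_zero, zero_mul]

theorem h23_wt12 (k : ℤ) (hk : k = 12) (f : ModularForm 𝒮ℒ k)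
    (h0 : coeff 0 (qExpansion 1 f) = 0) : ∃ c : ℂ, qExpansion 1 f = C c * qD := by
  classical
  obtain ⟨s, c, hs, hq⟩ := h15_stTRI ⊤ k f (fun n => Subring.mem_top _)
  let α : ℕ × ℕ × ℕ → ℂ := fun t => if t.1 = 1 then c t else 0
  let β : ℕ × ℕ × ℕ → ℂ := fun t => if t.2.1 = 3 then c t else 0
  let γ : ℕ × ℕ × ℕ → ℂ := fun t => if t.2.2 = 2 then c t else 0
  have hterm : ∀ t ∈ s, C (c t) * qD ^ t.1 * qE4 ^ t.2.1 * qE6 ^ t.2.2
      = C (α t) * qD + C (β t) * qE4 ^ 3 + C (γ t) * qE6 ^ 2 := by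
    intro t ht
    obtain ⟨-, h⟩ := hs t ht
    have h1 : (t.1 = 1 ∧ t.2.1 = 0 ∧ t.2.2 = 0) ∨ (t.1 = 0 ∧ t.2.1 = 3 ∧ t.2.2 = 0) ∨
        (t.1 = 0 ∧ t.2.1 = 0 ∧ t.2.2 = 2) := by omega
    rcases h1 with ⟨h1, h2, h3⟩ | ⟨h1, h2, h3⟩ | ⟨h1, h2, h3⟩
    · simp only [α, β, γ, h1, h2, h3]
      simp
    · simp only [α, β, γ, h1, h2, h3]
      simp
    · simp only [α, β, γ, h1, h2, h3]
      simp
  have hq' : qExpansion 1 f = C (∑ t ∈ s, α t) * qD + C (∑ t ∈ s, β t) * qE4 ^ 3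
      + C (∑ t ∈ s, γ t) * qE6 ^ 2 := by
    rw [hq, Finset.sum_congr rfl hterm, Finset.sum_add_distrib, Finset.sum_add_distrib,
      ← Finset.sum_mul, ← Finset.sum_mul, ← Finset.sum_mul, ← map_sum, ← map_sum, ← map_sum]
  have hpoly : qE4 ^ 3 = qE6 ^ 2 + C (1728 : ℂ) * qD := by
    rw [h15_qD_eq_poly]; ring
  have h4 : coeff 0 (qE6 ^ 2) = (1 : ℂ) := by
    have := h15_coeff_zero_mono 0 2
    rwa [pow_zero, one_mul] at this
  rw [hpoly] at hq'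
  have hq'' : qExpansion 1 f = C ((∑ t ∈ s, α t) + 1728 * ∑ t ∈ s, β t) * qD
      + C ((∑ t ∈ s, β t) + ∑ t ∈ s, γ t) * qE6 ^ 2 := by
    rw [hq']
    simp only [map_add, map_mul]
    ring
  rw [hq''] at h0 ⊢
  rw [map_add, coeff_C_mul, coeff_C_mul, h15_coeff_zero_qD, mul_zero, zero_add, h4, mul_one] at h0
  rw [h0, map_zero, zero_mul, add_zero]
  exact ⟨_, rfl⟩

end Fermat.Agent.S16x.Tr.H23
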